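import Fermat.Agent.LinearSieve.Weighted
import Fermat.Agent.PrimesMinusOne.BrunTitchmarsh

/-!
# A prime and a number with at most three prime factors

The weighted linear sieve, with the numbers divisible by the square of a middle prime removed.
-/

set_option autoImplicit false

noncomputable section

namespace FA.LinearSieve

open Finset Filter
open FA.CombinatorialSieve
open scoped Topology ArithmeticFunction.Omega

theorem cardFactors_le_three {m : ℕ} {y : ℝ} (hm : m ≠ 0) (hy : 1 < y) (hmy : (m : ℝ) < y ^ 3)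
    (hone : ∀ q r : ℕ, q.Prime → r.Prime → q ∣ m → r ∣ m → (q : ℝ) < y → (r : ℝ) < y → q = r)
    (hsq : ∀ q : ℕ, q.Prime → (q : ℝ) < y → ¬ q ^ 2 ∣ m) : Ω m ≤ 3 := by
  have key : ∀ n : ℕ, n ≠ 0 → n ≤ m → (∀ r : ℕ, r.Prime → r ∣ n → y ≤ r) → Ω n ≤ 2 := by
    intro n hn hnm h
    by_contra hc
    have h1 := (pow_le_pow_right₀ hy.le (show 3 ≤ Ω n by omega)).trans
      (pow_cardFactors_le (by linarith) hn h)
    have h2 : (n : ℝ) ≤ m := Nat.cast_le.2 hnm
    linarith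
  by_cases hex : ∃ q : ℕ, q.Prime ∧ q ∣ m ∧ (q : ℝ) < y
  · obtain ⟨q, hq, ⟨n, hn⟩, hqy⟩ := hex
    have hn0 : n ≠ 0 := fun h => hm (by rw [hn, h, mul_zero])
    have h2 := key n hn0 (hn ▸ Nat.le_mul_of_pos_left n hq.pos) fun r hr hrn => by
      by_contra hlt
      have he := hone q r hq hr (hn ▸ dvd_mul_right q n) (hn ▸ hrn.mul_left q) hqy (not_le.1 hlt)
      subst he
      exact hsq q hq hqy (by rw [hn, sq]; exact mul_dvd_mul_left q hrn)
    rw [hn, ArithmeticFunction.cardFactors_mul hq.ne_zero hn0,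
      ArithmeticFunction.cardFactors_apply_prime hq]
    omega
  · refine (key m hm le_rfl fun r hr hrm => not_lt.1 fun h => hex ⟨r, hr, hrm, h⟩).trans ?_
    norm_num

theorem square_exceptions_le {x : ℕ} {z y : ℝ} {M : ℕ} (hz : 2 ≤ z) (hy : 2 ≤ y) (c : ℕ → ℕ) :
    ∑ p ∈ (Icc 1 x).filter (fun p : ℕ => ∃ q ∈ middlePrimes z y M, p ≡ c q [MOD q ^ 2]),
      Real.log p ≤ Real.log x * (2 * x / z + 2 * y) := by
  classical
  refine (sum_le_card_nsmul _ _ (Real.log x) fun p hp => ?_).trans ?_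
  · have h := mem_Icc.1 (mem_filter.1 hp).1
    exact Real.log_le_log (Nat.cast_pos.2 h.1) (Nat.cast_le.2 h.2)
  rw [nsmul_eq_mul, mul_comm]
  refine mul_le_mul_of_nonneg_left ?_ (Real.log_natCast_nonneg x)
  have h1 : ((Icc 1 x).filter fun p : ℕ => ∃ q ∈ middlePrimes z y M, p ≡ c q [MOD q ^ 2]).card ≤
      ∑ q ∈ middlePrimes z y M, #((Ioc 0 x).filter fun p => p ≡ c q [MOD q ^ 2]) := by
    refine le_trans (card_le_card fun p hp => ?_) card_biUnion_le
    rw [mem_filter, mem_Icc] at hp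
    obtain ⟨q, hq, hpq⟩ := hp.2
    exact mem_biUnion.2 ⟨q, hq, mem_filter.2 ⟨mem_Ioc.2 ⟨hp.1.1, hp.1.2⟩, hpq⟩⟩
  refine (Nat.cast_le.2 h1).trans ?_
  push_cast
  refine (sum_le_sum (g := fun q : ℕ => (x : ℝ) * ((q : ℝ) ^ 2)⁻¹ + 1) fun q hq => ?_).trans ?_
  · have hq0 : 0 < q := (prime_of_mem_sievingPrimes (mem_filter.1 hq).1).pos
    have h := (abs_le.1 (PrimesMinusOne.abs_card_class_sub_div_le (pow_pos hq0 2) x (c q))).2
    push_cast at h
    rw [← div_eq_mul_inv]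
    linarith
  rw [sum_add_distrib, ← mul_sum, sum_const, nsmul_eq_mul, mul_one]
  refine add_le_add ?_ ?_
  · have hr : 2 ≤ ⌈z⌉₊ := by exact_mod_cast hz.trans (Nat.le_ceil z)
    refine (mul_le_mul_of_nonneg_left (sum_inv_sq_ge_le hr fun q hq =>
      Nat.ceil_le.2 (mem_filter.1 hq).2) (Nat.cast_nonneg x)).trans ?_
    rw [mul_div_assoc', mul_comm]
    exact div_le_div_of_nonneg_left (by positivity) (by linarith) (Nat.le_ceil z)
  · have h2 : (middlePrimes z y M).card ≤ ⌈y⌉₊ :=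
      ((card_filter_le _ _).trans (card_filter_le _ _)).trans (card_range _).le
    refine (Nat.cast_le.2 h2).trans ?_
    linarith [(Nat.ceil_lt_add_one (show 0 ≤ y by linarith)).le]

theorem eventually_square_exceptions_le {ε : ℝ} (hε : 0 < ε) : ∀ᶠ x : ℕ in atTop,
    Real.log x * (2 * x / (x : ℝ) ^ (1 / 8 : ℝ) + 2 * (x : ℝ) ^ (1003 / 3000 : ℝ)) ≤
      ε * x / Real.log x := by
  have h4 := ((tendsto_rpow_atTop (show (0 : ℝ) < 1 / 16 by norm_num)).comp
    (tendsto_natCast_atTop_atTop (R := ℝ))).eventually_ge_atTop (4 / ε)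
  filter_upwards [h4, eventually_ge_atTop 2,
    BombieriVinogradov.eventually_log_pow_le 2 (show (0 : ℝ) < 1 / 16 by norm_num)] with x h1 hx hl
  simp only [Function.comp_apply] at h1
  have hx0 : (0 : ℝ) < x := Nat.cast_pos.2 (by omega)
  have hl0 : 0 < Real.log x := Real.log_pos (Nat.one_lt_cast.2 (by omega))
  obtain ⟨u, hu⟩ : ∃ u, u = (x : ℝ) ^ (1 / 16 : ℝ) := ⟨_, rfl⟩
  rw [← hu] at h1 hl
  have hu0 : 0 < u := hu ▸ Real.rpow_pos_of_pos hx0 _
  have e : (x : ℝ) ^ (1 / 8 : ℝ) = u * u := by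
    rw [hu, ← Real.rpow_add hx0]
    norm_num
  have h2 : (x : ℝ) ^ (1003 / 3000 : ℝ) ≤ x / (u * u) := by
    rw [← e, le_div_iff₀ (Real.rpow_pos_of_pos hx0 _), ← Real.rpow_add hx0]
    conv_rhs => rw [← Real.rpow_one (x : ℝ)]
    exact Real.rpow_le_rpow_of_exponent_le (Nat.one_le_cast.2 (by omega)) (by norm_num)
  rw [e, le_div_iff₀ hl0]
  rw [div_le_iff₀ hε] at h1
  calc Real.log x * (2 * x / (u * u) + 2 * (x : ℝ) ^ (1003 / 3000 : ℝ)) * Real.log x
      ≤ Real.log x ^ 2 * (4 * (x / (u * u))) := by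
        have h3 := mul_le_mul_of_nonneg_left h2 (sq_nonneg (Real.log x))
        rw [sq] at h3 ⊢
        linarith [show 2 * (x : ℝ) / (u * u) = 2 * (x / (u * u)) by ring,
          show Real.log x * Real.log x * (2 * (x : ℝ) / (u * u)) =
            2 * (Real.log x * Real.log x * (x / (u * u))) by ring]
    _ ≤ u * (4 * (x / (u * u))) := mul_le_mul_of_nonneg_right hl (by positivity)
    _ = 4 * x / u := by field_simp
    _ ≤ ε * x := by
        rw [div_le_iff₀ hu0]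
        linarith [mul_le_mul_of_nonneg_left h1 hx0.le]

theorem dvd_shift_iff_of_middle {z y : ℝ} {M c p q : ℕ} (hq : q.Prime) (hqy : (q : ℝ) < y)
    (hqM : ¬ q ∣ M) (hqz : z ≤ q) :
    q ∈ middlePrimes z y M ∧ (p ≡ c [MOD q] → q ∣ p + classShift y M c) :=
  ⟨mem_filter.2 ⟨mem_sievingPrimes.2 ⟨hq, hqy, hqM⟩, hqz⟩,
    (dvd_add_classShift_iff ((prime_dvd_sievingProd_iff hq).2 ⟨hqy, hqM⟩)).2⟩

theorem small_factor_excluded {z y : ℝ} {M c p q : ℕ} (hzy : z ≤ y)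
    (h : (sievingProd z M).Coprime (p + classShift y M c))
    (hq : q.Prime) (hqz : (q : ℝ) < z) (hqM : ¬ q ∣ M) : ¬ p ≡ c [MOD q] := fun hmod =>
  hq.not_dvd_one (h ▸ Nat.dvd_gcd ((prime_dvd_sievingProd_iff hq).2 ⟨hqz, hqM⟩)
    ((dvd_add_classShift_iff ((prime_dvd_sievingProd_iff hq).2 ⟨hqz.trans_le hzy, hqM⟩)).2 hmod))

/-- **Every large even number is a prime plus a `P₃`.** -/
theorem exists_goldbach_three : ∃ η : ℝ, 0 < η ∧ ∀ᶠ N : ℕ in atTop, Even N →
    η * N / Real.log N ^ 2 ≤ (((range N).filter fun p => p.Prime ∧ 1 < N - p ∧ Ω (N - p) ≤ 3 ∧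
      ∀ q ∈ (N - p).primeFactors, N ≤ q ^ 8).card : ℝ) := by
  obtain ⟨η, hη, h⟩ := exists_weightedSet_ge
  refine ⟨η / 2, by positivity, ?_⟩
  filter_upwards [h, eventually_error_le (show 0 < η / 4 by linarith) 2,
    eventually_square_exceptions_le (show 0 < η / 4 by linarith),
    eventually_ge_atTop (65536 : ℕ)] with N hN herr hsq hN4 heven
  obtain ⟨z, hz⟩ : ∃ z : ℝ, z = (N : ℝ) ^ (1 / 8 : ℝ) := ⟨_, rfl⟩
  obtain ⟨y, hy⟩ : ∃ y : ℝ, y = (N : ℝ) ^ (1003 / 3000 : ℝ) := ⟨_, rfl⟩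
  rw [← hz, ← hy] at hN hsq
  have hN0 : (0 : ℝ) < N := Nat.cast_pos.2 (by omega)
  have hN1 : (1 : ℝ) < N := Nat.one_lt_cast.2 (by omega)
  have hz0 : 0 ≤ z := hz ▸ Real.rpow_nonneg hN0.le _
  have hz8 : z ^ 8 = (N : ℝ) := by
    rw [hz, show (1 : ℝ) / 8 = ((8 : ℕ) : ℝ)⁻¹ by norm_num,
      Real.rpow_inv_natCast_pow hN0.le (by norm_num)]
  have hz4 : 4 ≤ z := by
    refine le_of_pow_le_pow_left₀ (show (8 : ℕ) ≠ 0 by norm_num) hz0 ?_
    rw [hz8]
    norm_num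
    exact_mod_cast hN4
  have hzy : z ≤ y := by
    rw [hz, hy]
    exact Real.rpow_le_rpow_of_exponent_le hN1.le (by norm_num)
  have hy3 : (N : ℝ) < y ^ 3 := by
    rw [hy, ← Real.rpow_natCast, ← Real.rpow_mul hN0.le]
    conv_lhs => rw [← Real.rpow_one (N : ℝ)]
    exact Real.rpow_lt_rpow_of_exponent_lt hN1 (by norm_num)
  have hth := hN N N heven.two_dvd fun q _ _ hq => hq
  obtain ⟨S, hS⟩ : ∃ S, S = (weightedSet N z y N N).filter fun p => (¬ p ∣ N ∧ p + 1 ≠ N) ∧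
      ¬ ∃ q ∈ middlePrimes z y N, p ≡ N [MOD q ^ 2] := ⟨_, rfl⟩
  refine card_ge_of_sum_log (S := S)
    (E := 2 * Real.log N + Real.log N * (2 * N / z + 2 * y)) (by omega)
    (hS ▸ (filter_subset _ _).trans (filter_subset _ _)) (fun p hp => ?_) ?_ ?_
  · rw [hS, mem_filter, weightedSet, mem_filter, mem_Icc] at hp
    obtain ⟨⟨⟨hp1, hpN⟩, hpp, hcop, hcard⟩, ⟨hdvd, hne⟩, hnsq⟩ := hp
    have hlt : p < N := lt_of_le_of_ne hpN fun e => hdvd (e ▸ dvd_rfl)
    have hnM : ∀ q : ℕ, q.Prime → q ∣ N - p → ¬ q ∣ N := fun q hq hqd hqN => hdvd (by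
      have h1 := Nat.dvd_sub hqN hqd
      rw [Nat.sub_sub_self hpN, Nat.prime_dvd_prime_iff_eq hq hpp] at h1
      exact h1 ▸ hqN)
    have hfac : ∀ q : ℕ, q.Prime → q ∣ N - p → z ≤ q := fun q hq hqd => not_lt.1 fun hlt' =>
      small_factor_excluded hzy hcop hq hlt' (hnM q hq hqd) ((Nat.modEq_iff_dvd' hpN).2 hqd)
    refine mem_filter.2 ⟨mem_range.2 hlt, hpp, by omega,
      cardFactors_le_three (y := y) (by omega) (by linarith) ?_ ?_ ?_, fun q hq => ?_⟩
    · have : ((N - p : ℕ) : ℝ) ≤ N := Nat.cast_le.2 (Nat.sub_le N p)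
      linarith
    · intro q r hq hr hqd hrd hqy hry
      obtain ⟨hq1, hq2⟩ := dvd_shift_iff_of_middle (p := p) (c := N) hq hqy (hnM q hq hqd)
        (hfac q hq hqd)
      obtain ⟨hr1, hr2⟩ := dvd_shift_iff_of_middle (p := p) (c := N) hr hry (hnM r hr hrd)
        (hfac r hr hrd)
      exact card_le_one.1 hcard q (mem_filter.2 ⟨hq1, hq2 ((Nat.modEq_iff_dvd' hpN).2 hqd)⟩) r
        (mem_filter.2 ⟨hr1, hr2 ((Nat.modEq_iff_dvd' hpN).2 hrd)⟩)
    · intro q hq hqy hq2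
      have hqd : q ∣ N - p := (dvd_pow_self q two_ne_zero).trans hq2
      exact hnsq ⟨q, (dvd_shift_iff_of_middle (p := p) (c := N) hq hqy (hnM q hq hqd)
        (hfac q hq hqd)).1, (Nat.modEq_iff_dvd' hpN).2 hq2⟩
    · have h1 := pow_le_pow_left₀ hz0 (hfac q (Nat.prime_of_mem_primeFactors hq)
        (Nat.dvd_of_mem_primeFactors hq)) 8
      rw [hz8] at h1
      exact_mod_cast h1
  · push_cast at herr
    have e : η * N / Real.log N / 2 = η / 4 * N / Real.log N + η / 4 * N / Real.log N := by ring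
    linarith
  · rw [← sum_filter_add_sum_filter_not _ (fun p => (¬ p ∣ N ∧ p + 1 ≠ N) ∧
      ¬ ∃ q ∈ middlePrimes z y N, p ≡ N [MOD q ^ 2]), ← hS] at hth
    refine sub_le_iff_le_add.2 (hth.trans (add_le_add le_rfl ?_))
    refine le_trans (sum_le_sum_of_subset_of_nonneg (t := ((N.primeFactors) ∪ {N - 1}) ∪
      (Icc 1 N).filter (fun p : ℕ => ∃ q ∈ middlePrimes z y N, p ≡ N [MOD q ^ 2]))
      (fun p hp => ?_) fun p _ _ => Real.log_natCast_nonneg p) ?_
    · simp only [mem_filter, weightedSet, not_and_or, not_not] at hp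
      rw [mem_union, mem_union, mem_singleton, Nat.mem_primeFactors]
      rcases hp.2 with (h1 | h1) | h1
      · exact Or.inl (Or.inl ⟨hp.1.2.1, h1, by omega⟩)
      · exact Or.inl (Or.inr (by omega))
      · exact Or.inr (mem_filter.2 ⟨hp.1.1, h1⟩)
    · have hu : ∀ A B : Finset ℕ, ∑ p ∈ A ∪ B, Real.log p ≤
          ∑ p ∈ A, Real.log p + ∑ p ∈ B, Real.log p := fun A B => by
        rw [← sum_union_inter]
        exact le_add_of_nonneg_right (sum_nonneg fun p _ => Real.log_natCast_nonneg p)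
      refine (hu _ _).trans (add_le_add ((hu _ _).trans ?_)
        (square_exceptions_le (by linarith) (by linarith) fun _ => N))
      rw [sum_singleton, two_mul]
      exact add_le_add (sum_log_dvd_le (by omega) fun p hp =>
        ⟨Nat.prime_of_mem_primeFactors hp, Nat.dvd_of_mem_primeFactors hp⟩)
        (Real.log_le_log (Nat.cast_pos.2 (by omega)) (Nat.cast_le.2 (Nat.sub_le N 1)))

/-- **Infinitely many primes have a `P₃` at a given even distance.** -/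
theorem exists_shift_three {h : ℕ} (hh : Even h) (hh0 : 0 < h) : ∃ η : ℝ, 0 < η ∧
    ∀ᶠ x : ℕ in atTop, η * x / Real.log x ^ 2 ≤
      (((Icc 1 x).filter fun p => p.Prime ∧ Ω (p + h) ≤ 3 ∧
        ∀ q ∈ (p + h).primeFactors, x ≤ q ^ 8).card : ℝ) := by
  obtain ⟨η, hη, hev⟩ := exists_weightedSet_ge
  refine ⟨η / 2, by positivity, ?_⟩
  have h2 := ((tendsto_rpow_atTop (show (0 : ℝ) < 3 / 1000 by norm_num)).comp
    (tendsto_natCast_atTop_atTop (R := ℝ))).eventually_gt_atTop 2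
  filter_upwards [hev, h2, eventually_error_le (show 0 < η / 4 by linarith) h,
    eventually_square_exceptions_le (show 0 < η / 4 by linarith),
    eventually_ge_atTop (max (65536 : ℕ) h)] with x hx hx2 herr hsq hxh
  simp only [Function.comp_apply] at hx2
  obtain ⟨z, hz⟩ : ∃ z : ℝ, z = (x : ℝ) ^ (1 / 8 : ℝ) := ⟨_, rfl⟩
  obtain ⟨y, hy⟩ : ∃ y : ℝ, y = (x : ℝ) ^ (1003 / 3000 : ℝ) := ⟨_, rfl⟩
  rw [← hz, ← hy] at hx hsq
  have hx4 : 65536 ≤ x := le_of_max_le_left hxh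
  have hhx : h ≤ x := le_of_max_le_right hxh
  have hx0 : (0 : ℝ) < x := Nat.cast_pos.2 (by omega)
  have hx1 : (1 : ℝ) < x := Nat.one_lt_cast.2 (by omega)
  have hz0 : 0 ≤ z := hz ▸ Real.rpow_nonneg hx0.le _
  have hz8 : z ^ 8 = (x : ℝ) := by
    rw [hz, show (1 : ℝ) / 8 = ((8 : ℕ) : ℝ)⁻¹ by norm_num,
      Real.rpow_inv_natCast_pow hx0.le (by norm_num)]
  have hz4 : 4 ≤ z := by
    refine le_of_pow_le_pow_left₀ (show (8 : ℕ) ≠ 0 by norm_num) hz0 ?_
    rw [hz8]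
    norm_num
    exact_mod_cast hx4
  have hzy : z ≤ y := by
    rw [hz, hy]
    exact Real.rpow_le_rpow_of_exponent_le hx1.le (by norm_num)
  have hy3 : 2 * (x : ℝ) < y ^ 3 := by
    rw [hy, ← Real.rpow_natCast, ← Real.rpow_mul hx0.le,
      show (1003 : ℝ) / 3000 * ((3 : ℕ) : ℝ) = 3 / 1000 + 1 by norm_num, Real.rpow_add hx0,
      Real.rpow_one]
    exact mul_lt_mul_of_pos_right hx2 hx0
  obtain ⟨c, hc⟩ : ∃ c, c = (sievingProd y h - 1) * h := ⟨_, rfl⟩
  have hP := sievingProd_pos y h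
  have hmod : ∀ p q : ℕ, q ∣ sievingProd y h → q ∣ p + h → p ≡ c [MOD q] := fun p q hq hd => by
    rw [hc, ← ZMod.natCast_eq_natCast_iff]
    have h3 : ((p + h : ℕ) : ZMod q) = 0 := (ZMod.natCast_eq_zero_iff _ _).2 hd
    have h4 : ((sievingProd y h : ℕ) : ZMod q) = 0 := (ZMod.natCast_eq_zero_iff _ _).2 hq
    push_cast [Nat.cast_sub (show 1 ≤ sievingProd y h from hP)] at h3 ⊢
    rw [h4, zero_sub, neg_one_mul]
    exact eq_neg_of_add_eq_zero_left h3
  have hmod2 : ∀ p q : ℕ, 0 < q → q ^ 2 ∣ p + h → p ≡ q ^ 2 * h - h [MOD q ^ 2] :=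
      fun p q hq hd => by
    have hle : h ≤ q ^ 2 * h := Nat.le_mul_of_pos_left h (pow_pos hq 2)
    rw [← ZMod.natCast_eq_natCast_iff, Nat.cast_sub hle, Nat.cast_mul, ZMod.natCast_self, zero_mul,
      zero_sub, eq_neg_iff_add_eq_zero, ← Nat.cast_add]
    exact (ZMod.natCast_eq_zero_iff _ _).2 hd
  have hth := hx h c hh.two_dvd fun q hq hqy hqh hqc => by
    rw [hc] at hqc
    rcases hq.dvd_mul.1 hqc with h1 | h1
    · have h3 := Nat.dvd_sub ((prime_dvd_sievingProd_iff hq).2 ⟨hqy, hqh⟩) h1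
      rw [Nat.sub_sub_self hP] at h3
      exact hq.not_dvd_one h3
    · exact hqh h1
  obtain ⟨S, hS⟩ : ∃ S, S = (weightedSet x z y h c).filter fun p => h < p ∧
      ¬ ∃ q ∈ middlePrimes z y h, p ≡ q ^ 2 * h - h [MOD q ^ 2] := ⟨_, rfl⟩
  refine card_ge_of_sum_log (S := S)
    (E := h * Real.log x + Real.log x * (2 * x / z + 2 * y)) (by omega)
    (hS ▸ (filter_subset _ _).trans (filter_subset _ _)) (fun p hp => ?_) ?_ ?_
  · rw [hS, mem_filter, weightedSet, mem_filter, mem_Icc] at hp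
    obtain ⟨⟨⟨hp1, hpx⟩, hpp, hcop, hcard⟩, hhp, hnsq⟩ := hp
    have hnM : ∀ q : ℕ, q.Prime → q ∣ p + h → ¬ q ∣ h := fun q hq hqd hqh => by
      have h1 := (Nat.dvd_add_left hqh).1 hqd
      rw [Nat.prime_dvd_prime_iff_eq hq hpp] at h1
      have := Nat.le_of_dvd hh0 hqh
      omega
    have hfac : ∀ q : ℕ, q.Prime → q ∣ p + h → z ≤ q := fun q hq hqd => not_lt.1 fun hlt =>
      small_factor_excluded hzy hcop hq hlt (hnM q hq hqd) (hmod p q
        ((prime_dvd_sievingProd_iff hq).2 ⟨hlt.trans_le hzy, hnM q hq hqd⟩) hqd)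
    refine mem_filter.2 ⟨mem_Icc.2 ⟨hp1, hpx⟩, hpp,
      cardFactors_le_three (y := y) (by omega) (by linarith) ?_ ?_ ?_, fun q hq => ?_⟩
    · have : ((p + h : ℕ) : ℝ) ≤ 2 * x := by exact_mod_cast (show p + h ≤ 2 * x by omega)
      linarith
    · intro q r hq hr hqd hrd hqy hry
      obtain ⟨hq1, hq2⟩ := dvd_shift_iff_of_middle (p := p) (c := c) hq hqy (hnM q hq hqd)
        (hfac q hq hqd)
      obtain ⟨hr1, hr2⟩ := dvd_shift_iff_of_middle (p := p) (c := c) hr hry (hnM r hr hrd)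
        (hfac r hr hrd)
      exact card_le_one.1 hcard q (mem_filter.2 ⟨hq1, hq2 (hmod p q
          ((prime_dvd_sievingProd_iff hq).2 ⟨hqy, hnM q hq hqd⟩) hqd)⟩) r
        (mem_filter.2 ⟨hr1, hr2 (hmod p r
          ((prime_dvd_sievingProd_iff hr).2 ⟨hry, hnM r hr hrd⟩) hrd)⟩)
    · intro q hq hqy hq2
      have hqd : q ∣ p + h := (dvd_pow_self q two_ne_zero).trans hq2
      exact hnsq ⟨q, (dvd_shift_iff_of_middle (p := p) (c := c) hq hqy (hnM q hq hqd)
        (hfac q hq hqd)).1, hmod2 p q hq.pos hq2⟩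
    · have h1 := pow_le_pow_left₀ hz0 (hfac q (Nat.prime_of_mem_primeFactors hq)
        (Nat.dvd_of_mem_primeFactors hq)) 8
      rw [hz8] at h1
      exact_mod_cast h1
  · have e : η * x / Real.log x / 2 = η / 4 * x / Real.log x + η / 4 * x / Real.log x := by ring
    linarith
  · rw [← sum_filter_add_sum_filter_not _ (fun p => h < p ∧
      ¬ ∃ q ∈ middlePrimes z y h, p ≡ q ^ 2 * h - h [MOD q ^ 2]), ← hS] at hth
    refine sub_le_iff_le_add.2 (hth.trans (add_le_add le_rfl ?_))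
    refine le_trans (sum_le_sum_of_subset_of_nonneg (t := Icc 1 h ∪
      (Icc 1 x).filter (fun p : ℕ => ∃ q ∈ middlePrimes z y h, p ≡ q ^ 2 * h - h [MOD q ^ 2]))
      (fun p hp => ?_) fun p _ _ => Real.log_natCast_nonneg p) ?_
    · simp only [mem_filter, weightedSet, not_and_or, not_not, not_lt] at hp
      rw [mem_union]
      rcases hp.2 with h1 | h1
      · exact Or.inl (mem_Icc.2 ⟨(mem_Icc.1 hp.1.1).1, h1⟩)
      · exact Or.inr (mem_filter.2 ⟨hp.1.1, h1⟩)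
    · refine le_trans (le_add_of_nonneg_right (sum_nonneg fun p _ => Real.log_natCast_nonneg p))
        ((sum_union_inter).le.trans (add_le_add
          ((sum_le_card_nsmul _ _ (Real.log x) fun p hp => ?_).trans
          (le_of_eq (by simp))) (square_exceptions_le (by linarith) (by linarith) _)))
      have h1 := mem_Icc.1 hp
      exact Real.log_le_log (Nat.cast_pos.2 h1.1) (Nat.cast_le.2 (h1.2.trans hhx))

end FA.LinearSieve
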