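import Fermat.Agent.CombinatorialSieve.Weights
import Mathlib.MeasureTheory.Integral.IntervalIntegral.Basic
import Mathlib.Analysis.SpecialFunctions.Log.Basic
import Mathlib.Tactic

/-!
# Buchstab's recursion and partial summation

The defect of the beta sieve is a sum over the largest prime, and a sum weighted by the steps of
`∏ (1 - x q)⁻¹` is bounded by an integral.
-/

set_option autoImplicit false

noncomputable section

namespace FA.LinearSieve

open Finset MeasureTheory intervalIntegral
open FA.CombinatorialSieve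

theorem sum_powerset_eq (T : Finset ℕ) (g : Finset ℕ → ℝ) :
    ∑ U ∈ T.powerset, g U =
      g ∅ + ∑ p ∈ T, ∑ W ∈ (T.filter (· < p)).powerset, g (insert p W) := by
  classical
  induction T using Finset.induction_on_max with
  | empty => simp
  | insert a T haT ih =>
    have ha : a ∉ T := fun h => (haT a h).false
    rw [sum_powerset_insert ha, sum_insert ha, ih]
    have h1 : (insert a T).filter (· < a) = T := by
      rw [filter_insert, if_neg (lt_irrefl a), filter_true_of_mem haT]
    have h2 : ∑ p ∈ T, ∑ W ∈ ((insert a T).filter (· < p)).powerset, g (insert p W) =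
        ∑ p ∈ T, ∑ W ∈ (T.filter (· < p)).powerset, g (insert p W) :=
      sum_congr rfl fun p hp => by rw [filter_insert, if_neg (not_lt.2 (haT p hp).le)]
    rw [h1, h2]
    ring

open Classical in
theorem truncSum_recursion {D : ℝ} {β par : ℕ} {T : Finset ℕ} (x : ℕ → ℝ) (hpar : par < 2)
    (hT : ∀ p ∈ T, 0 < p) :
    truncSum D β par T x = 1 - ∑ p ∈ T,
      if Admissible D β par {p} p then x p * truncSum (D / p) β (1 - par) (T.filter (· < p)) x
      else 0 := by
  rw [truncSum, sum_powerset_eq, if_pos (kept_empty D β par), prod_empty, sub_eq_add_neg,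
    ← sum_neg_distrib]
  congr 1
  refine sum_congr rfl fun p hp => ?_
  have hp0 : (0 : ℝ) < p := Nat.cast_pos.2 (hT p hp)
  have hkey : ∀ W ∈ (T.filter (· < p)).powerset,
      (Kept D β par (insert p W) ↔
        Admissible D β par {p} p ∧ Kept (D / p) β (1 - par) W) := by
    intro W hW
    have hlt : ∀ q ∈ W, q < p := fun q hq => (mem_filter.1 (mem_powerset.1 hW hq)).2
    have htop : (insert p W).filter (p ≤ ·) = ({p} : Finset ℕ).filter (p ≤ ·) := by
      rw [filter_insert, if_pos le_rfl, filter_false_of_mem fun q hq => not_le.2 (hlt q hq),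
        filter_singleton, if_pos le_rfl, insert_empty]
    have hlow : ∀ q ∈ W, (Admissible D β par (insert p W) q ↔
        Admissible (D / p) β (1 - par) W q) := by
      intro q hq
      have hpW : p ∉ W.filter (q ≤ ·) := fun h => (hlt p (mem_filter.1 h).1).false
      rw [Admissible, Admissible, filter_insert, if_pos (hlt q hq).le, card_insert_of_notMem hpW,
        prod_insert hpW, lt_div_iff₀ hp0, Nat.cast_mul]
      refine Iff.imp (by omega) ?_
      rw [mul_comm ((p : ℝ)), mul_right_comm]
    constructor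
    · intro hk
      exact ⟨(admissible_congr htop).1 (hk p (mem_insert_self p W)),
        fun q hq => (hlow q hq).1 (hk q (mem_insert_of_mem hq))⟩
    · rintro ⟨h1, h2⟩ q hq
      rcases mem_insert.1 hq with rfl | hq
      · exact (admissible_congr htop).2 h1
      · exact (hlow q hq).2 (h2 q hq)
  by_cases h : Admissible D β par {p} p
  · rw [if_pos h, truncSum, mul_sum, ← sum_neg_distrib]
    refine sum_congr rfl fun W hW => ?_
    have hpW : p ∉ W := fun h' => (mem_filter.1 (mem_powerset.1 hW h')).2.false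
    by_cases hk : Kept (D / p) β (1 - par) W
    · rw [if_pos ((hkey W hW).2 ⟨h, hk⟩), if_pos hk, prod_insert hpW, neg_mul]
    · rw [if_neg fun h' => hk ((hkey W hW).1 h').2, if_neg hk, mul_zero, neg_zero]
  · rw [if_neg h, neg_zero]
    exact sum_eq_zero fun W hW => if_neg fun h' => h ((hkey W hW).1 h').1

open Classical in
/-- **Buchstab's recursion for the defect.** -/
theorem defect_recursion {D : ℝ} {β par : ℕ} {T : Finset ℕ} (x : ℕ → ℝ) (hpar : par < 2)
    (hT : ∀ p ∈ T, 0 < p) :
    defect D β par T x = ∑ p ∈ T, x p *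
      if Admissible D β par {p} p then defect (D / p) β (1 - par) (T.filter (· < p)) x
      else ∏ q ∈ T.filter (· < p), (1 - x q) := by
  obtain ⟨σ, hσ⟩ : ∃ σ : ℝ, σ = (-1) ^ par := ⟨_, rfl⟩
  have hσ2 : σ * σ = 1 := by rw [hσ, ← mul_pow]; norm_num
  have hflip : ((-1 : ℝ)) ^ (1 - par) = -σ := by
    rw [hσ]
    interval_cases par <;> norm_num
  have h1 := truncSum_recursion (D := D) (β := β) x hpar hT
  rw [truncSum_eq, prod_one_sub_ordered, ← hσ] at h1
  have hsum : σ * defect D β par T x = σ * ∑ p ∈ T, x p *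
      if Admissible D β par {p} p then defect (D / p) β (1 - par) (T.filter (· < p)) x
      else ∏ q ∈ T.filter (· < p), (1 - x q) := by
    rw [mul_sum]
    have h2 : σ * defect D β par T x = ∑ p ∈ T,
        ((if Admissible D β par {p} p then
            x p * truncSum (D / p) β (1 - par) (T.filter (· < p)) x else 0) -
          x p * ∏ q ∈ T.filter (· < p), (1 - x q)) := by
      rw [sum_sub_distrib]
      linarith
    rw [h2]
    refine sum_congr rfl fun p _ => ?_
    by_cases h : Admissible D β par {p} p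
    · rw [if_pos h, if_pos h, truncSum_eq, hflip]
      ring
    · rw [if_neg h, if_neg h]
      have hp1 : par = 1 := by
        by_contra hne
        exact h fun hc => absurd hc (by rw [filter_singleton, if_pos le_rfl, card_singleton]; omega)
      rw [hσ, hp1, pow_one]
      ring
  calc defect D β par T x = σ * (σ * defect D β par T x) := by rw [← mul_assoc, hσ2, one_mul]
    _ = _ := by rw [hsum, ← mul_assoc, hσ2, one_mul]

/-- `∏_{q ≥ p} (1 - x q)⁻¹`. -/
def tailRatio (T : Finset ℕ) (x : ℕ → ℝ) (p : ℕ) : ℝ :=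
  ∏ q ∈ T.filter (p ≤ ·), (1 - x q)⁻¹

theorem prod_below_eq {T : Finset ℕ} {x : ℕ → ℝ} (hx : ∀ q ∈ T, x q < 1) (p : ℕ) :
    ∏ q ∈ T.filter (· < p), (1 - x q) = (∏ q ∈ T, (1 - x q)) * tailRatio T x p := by
  rw [tailRatio, ← prod_filter_mul_prod_filter_not T (· < p),
    filter_congr (q := (p ≤ ·)) fun q _ => not_lt, mul_assoc, ← prod_mul_distrib,
    prod_eq_one (s := T.filter (p ≤ ·))
      fun q hq => mul_inv_cancel₀ (sub_pos.2 (hx q (mem_filter.1 hq).1)).ne', mul_one]

/-- **Partial summation.** -/
theorem sum_tailRatio_mul_le {T : Finset ℕ} {x : ℕ → ℝ} {t : ℕ → ℝ} {G : ℝ → ℝ} {s ε I : ℝ}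
    (hx : ∀ p ∈ T, 0 ≤ x p ∧ x p < 1) (hs : 0 < s) (hε : 0 ≤ ε)
    (hGa : ∀ a b : ℝ, s ≤ a → a ≤ b → G b ≤ G a) (hGc : Continuous G) (hG0 : ∀ a : ℝ, 0 ≤ G a)
    (hts : ∀ p ∈ T, s ≤ t p) (htm : ∀ p ∈ T, ∀ q ∈ T, p ≤ q → t q ≤ t p)
    (hratio : ∀ p ∈ T, tailRatio T x p ≤ (1 + ε) * t p / s)
    (hI : ∀ b : ℝ, s ≤ b → ∫ u in s..b, G u ≤ I) :
    ∑ p ∈ T, x p * tailRatio T x p * G (t p) ≤ (1 + ε) / s * I + ε * G s := by
  have key : ∀ S : Finset ℕ, (∀ p ∈ S, p ∈ T) → (∀ p ∈ S, tailRatio S x p ≤ (1 + ε) * t p / s) →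
      ∀ b : ℝ, s ≤ b → (∀ p ∈ S, t p ≤ b) →
        ∑ p ∈ S, x p * tailRatio S x p * G (t p) +
            ((1 + ε) * b / s - ∏ q ∈ S, (1 - x q)⁻¹) * G b ≤
          (1 + ε) / s * (∫ u in s..b, G u) + ε * G s := by
    intro S
    induction S using Finset.induction_on_min with
    | empty =>
      intro _ _ b hb _
      rw [sum_empty, prod_empty, zero_add]
      have h1 : (b - s) * G b ≤ ∫ u in s..b, G u := by
        have h := integral_mono_on hb (intervalIntegrable_const (μ := volume) (c := G b))
          (hGc.intervalIntegrable s b) fun u hu => hGa u b hu.1 hu.2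
        rwa [intervalIntegral.integral_const, smul_eq_mul] at h
      have h2 := mul_le_mul_of_nonneg_left h1 (show 0 ≤ (1 + ε) / s by positivity)
      have h3 : ε * G b ≤ ε * G s := mul_le_mul_of_nonneg_left (hGa s b le_rfl hb) hε
      have h4 : ((1 + ε) * b / s - 1) * G b = (1 + ε) / s * ((b - s) * G b) + ε * G b := by
        field_simp
        ring
      linarith
    | insert a S haS ih =>
      intro hST hr b hb hbt
      have ha : a ∉ S := fun h => (haS a h).false
      have haT : a ∈ T := hST a (mem_insert_self a S)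
      have hta : s ≤ t a := hts a haT
      have hsame : ∀ p ∈ S, tailRatio (insert a S) x p = tailRatio S x p := fun p hp => by
        rw [tailRatio, tailRatio, filter_insert, if_neg (not_le.2 (haS p hp))]
      have htop : tailRatio (insert a S) x a = (1 - x a)⁻¹ * ∏ q ∈ S, (1 - x q)⁻¹ := by
        rw [tailRatio, filter_insert, if_pos le_rfl, filter_true_of_mem fun q hq => (haS q hq).le,
          prod_insert ha]
      have h := ih (fun p hp => hST p (mem_insert_of_mem hp))
        (fun p hp => hsame p hp ▸ hr p (mem_insert_of_mem hp)) (t a) hta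
        fun p hp => htm a haT p (hST p (mem_insert_of_mem hp)) (haS p hp).le
      rw [sum_insert ha, sum_congr rfl fun p hp => by rw [hsame p hp], htop, prod_insert ha]
      obtain ⟨P, hP⟩ : ∃ P, P = (1 - x a)⁻¹ * ∏ q ∈ S, (1 - x q)⁻¹ := ⟨_, rfl⟩
      rw [← hP]
      have hx1 : 1 - x a ≠ 0 := (sub_pos.2 (hx a haT).2).ne'
      have hdiff : x a * P = P - ∏ q ∈ S, (1 - x q)⁻¹ := by
        rw [hP]
        field_simp
        ring
      rw [hdiff]
      have hPM : P ≤ (1 + ε) * t a / s := hP ▸ htop ▸ hr a (mem_insert_self a S)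
      have hab : t a ≤ b := hbt a (mem_insert_self a S)
      have h1 : (b - t a) * G b ≤ ∫ u in (t a)..b, G u := by
        have h' := integral_mono_on hab (intervalIntegrable_const (μ := volume) (c := G b))
          (hGc.intervalIntegrable (t a) b) fun u hu => hGa u b (hta.trans hu.1) hu.2
        rwa [intervalIntegral.integral_const, smul_eq_mul] at h'
      have h2 := mul_le_mul_of_nonneg_left h1 (show 0 ≤ (1 + ε) / s by positivity)
      have h3 : 0 ≤ ((1 + ε) * t a / s - P) * (G (t a) - G b) :=
        mul_nonneg (by linarith) (sub_nonneg.2 (hGa (t a) b hta hab))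
      have h4 : ((1 + ε) * b / s - (1 + ε) * t a / s) * G b = (1 + ε) / s * ((b - t a) * G b) := by
        ring
      rw [← integral_add_adjacent_intervals (hGc.intervalIntegrable s (t a))
        (hGc.intervalIntegrable (t a) b)]
      linarith
  rcases T.eq_empty_or_nonempty with rfl | hne
  · rw [sum_empty]
    have h0 := hI s le_rfl
    rw [integral_same] at h0
    have := mul_nonneg hε (hG0 s)
    positivity
  · obtain ⟨b, hb⟩ : ∃ b, b = t (T.min' hne) := ⟨_, rfl⟩
    have hmem := T.min'_mem hne
    have h := key T (fun p hp => hp) hratio b (hb ▸ hts _ hmem) fun p hp =>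
      hb ▸ htm _ hmem p hp (T.min'_le p hp)
    have h1 : ∏ q ∈ T, (1 - x q)⁻¹ ≤ (1 + ε) * b / s := by
      have h2 := hratio _ hmem
      rw [tailRatio, filter_true_of_mem fun q hq => T.min'_le q hq] at h2
      exact hb ▸ h2
    have h3 := mul_nonneg (sub_nonneg.2 h1) (hG0 b)
    have h4 := mul_le_mul_of_nonneg_left (hI b (hb ▸ hts _ hmem))
      (show 0 ≤ (1 + ε) / s by positivity)
    linarith

end FA.LinearSieve
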