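import Fermat.Agent.LinearSieve.Series
import Fermat.Agent.LinearSieve.Recursion

/-!
# The main term of the linear sieve

If `∏_{r ≤ q < b} (1 - x q)⁻¹ ≤ (1 + ε) log b / log r`, the defects of the beta sieve with `β = 2`
are at most `F (s) - 1 + δ`, respectively `1 - f (s) + δ`, times the product, `ε` small for `δ`.
-/

set_option autoImplicit false

noncomputable section

namespace FA.LinearSieve

open Finset MeasureTheory intervalIntegral
open FA.CombinatorialSieve

/-- The linear dimension condition. -/
def RatioBound (T : Finset ℕ) (x : ℕ → ℝ) (ε : ℝ) : Prop :=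
  ∀ r ∈ T, ∀ b : ℝ, (r : ℝ) ≤ b →
    ∏ q ∈ T.filter (fun q : ℕ => r ≤ q ∧ (q : ℝ) < b), (1 - x q)⁻¹ ≤
      (1 + ε) * Real.log b / Real.log r

theorem RatioBound.mono {T S : Finset ℕ} {x : ℕ → ℝ} {ε : ℝ} (h : RatioBound T x ε) (hST : S ⊆ T)
    (hx : ∀ p ∈ T, 0 ≤ x p ∧ x p < 1) : RatioBound S x ε := fun r hr b hb => by
  refine le_trans (prod_le_prod_of_subset_of_one_le (filter_subset_filter _ hST) (fun q hq => ?_)
    fun q hq _ => ?_) (h r (hST hr) b hb)
  · exact inv_nonneg.2 (sub_nonneg.2 (hx q (hST (mem_filter.1 hq).1)).2.le)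
  · have := hx q (mem_filter.1 hq).1
    exact one_le_inv_iff₀.2 ⟨sub_pos.2 this.2, sub_le_self _ this.1⟩

theorem RatioBound.tail_le {T : Finset ℕ} {x : ℕ → ℝ} {ε z : ℝ} (h : RatioBound T x ε) {p : ℕ}
    (hp : p ∈ T) (hz : ∀ q ∈ T, (q : ℝ) < z) :
    tailRatio T x p ≤ (1 + ε) * Real.log z / Real.log p := by
  refine le_of_eq_of_le ?_ (h p hp z (hz p hp).le)
  rw [tailRatio]
  exact prod_congr (filter_congr fun q hq => ⟨fun h => ⟨h, hz q hq⟩, fun h => h.1⟩) fun _ _ => rfl

theorem antitone_upperWeight : Antitone upperWeight := fun a b hab => by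
  have h := max_le_max hab (le_refl (1 : ℝ))
  exact min_le_min (div_le_div_of_nonneg_left three_pos.le (lt_max_of_lt_right one_pos) h)
    (Real.exp_le_exp.2 (by linarith))

theorem antitone_lowerWeight : Antitone lowerWeight := fun a b hab =>
  mul_le_mul_of_nonneg_left (Real.exp_le_exp.2 (by linarith [max_le_max hab (le_refl (2 : ℝ))]))
    (by positivity [decay_pos])

theorem upperWeight_pred_le {s : ℝ} (hs : 2 ≤ s) :
    upperWeight (s - 1) ≤ 8 * lowerWeight s := by
  have h2 : Real.exp 2 ≤ 7.39 := by
    rw [show (2 : ℝ) = 1 + 1 by norm_num, Real.exp_add]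
    refine le_trans (mul_le_mul Real.exp_one_lt_d9.le Real.exp_one_lt_d9.le (Real.exp_pos 1).le
      (by norm_num)) (by norm_num)
  rw [lowerWeight, max_eq_left hs, decay]
  rcases le_or_gt s 4 with h4 | h4
  · refine (upperWeight_le _).trans ?_
    have e : Real.exp 2 * Real.exp (2 - s) ≥ 1 := by
      rw [← Real.exp_add]
      exact Real.one_le_exp (by linarith)
    nlinarith [Real.exp_pos (2 - s)]
  · rw [upperWeight_eq_exp (by linarith), show 3 - (s - 1) = 2 + (2 - s) by ring, Real.exp_add]
    nlinarith [Real.exp_pos (2 - s)]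

theorem lowerWeight_pred {s : ℝ} (hs : 3 ≤ s) :
    lowerWeight (s - 1) = 3 * decay * upperWeight s := by
  rw [lowerWeight, max_eq_left (by linarith), upperWeight_eq_exp hs]
  ring_nf

/-- The two claims of the induction. -/
def DefectClaim (T : Finset ℕ) (x : ℕ → ℝ) (δ D z : ℝ) : Prop :=
  (Real.log z ≤ Real.log D → defect D 2 1 T x ≤ (∏ q ∈ T, (1 - x q)) *
      (upperDefect (Real.log D / Real.log z) + δ * upperWeight (Real.log D / Real.log z))) ∧
  (2 * Real.log z ≤ Real.log D → defect D 2 0 T x ≤ (∏ q ∈ T, (1 - x q)) *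
      (lowerDefect (Real.log D / Real.log z) + δ * lowerWeight (Real.log D / Real.log z)))

/-- One step of the recursion, with all the primes admissible. -/
theorem step_le {T : Finset ℕ} {x : ℕ → ℝ} {ε δ D z I : ℝ} {par : ℕ} {Φ W : ℝ → ℝ}
    (hT : ∀ p ∈ T, 2 ≤ p ∧ (p : ℝ) < z) (hx : ∀ p ∈ T, 0 ≤ x p ∧ x p < 1)
    (hr : RatioBound T x ε) (hε : 0 ≤ ε) (hδ : 0 ≤ δ) (hpar : par < 2) (hz : 2 ≤ z)
    (hs : 0 < Real.log D / Real.log z) (hΦ : Antitone Φ) (hΦc : Continuous Φ)
    (hΦ0 : ∀ a, 0 ≤ Φ a) (hW : Antitone W) (hWc : Continuous W) (hW0 : ∀ a, 0 ≤ W a)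
    (hadm : ∀ p ∈ T, Admissible D 2 par {p} p)
    (hsub : ∀ p ∈ T, defect (D / p) 2 (1 - par) (T.filter (· < p)) x ≤
      (∏ q ∈ T.filter (· < p), (1 - x q)) *
        (Φ (Real.log D / Real.log p - 1) + δ * W (Real.log D / Real.log p - 1)))
    (hI : ∀ b, Real.log D / Real.log z ≤ b →
      ∫ u in (Real.log D / Real.log z)..b, (Φ (u - 1) + δ * W (u - 1)) ≤ I) :
    defect D 2 par T x ≤ (∏ q ∈ T, (1 - x q)) * ((1 + ε) / (Real.log D / Real.log z) * I +
      ε * (Φ (Real.log D / Real.log z - 1) + δ * W (Real.log D / Real.log z - 1))) := by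
  classical
  obtain ⟨s, hsdef⟩ : ∃ s, s = Real.log D / Real.log z := ⟨_, rfl⟩
  rw [← hsdef] at hs hI ⊢
  have hlz : 0 < Real.log z := Real.log_pos (by linarith)
  have hlD : Real.log D = s * Real.log z := by rw [hsdef, div_mul_cancel₀ _ hlz.ne']
  have hlp : ∀ p ∈ T, 0 < Real.log p ∧ Real.log p ≤ Real.log z := fun p hp =>
    ⟨Real.log_pos (Nat.one_lt_cast.2 (hT p hp).1),
      Real.log_le_log (Nat.cast_pos.2 (by linarith [(hT p hp).1])) (hT p hp).2.le⟩
  have hlD0 : 0 ≤ Real.log D := hlD ▸ (mul_pos hs hlz).le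
  have h := sum_tailRatio_mul_le (T := T) (t := fun p => Real.log D / Real.log p)
    (G := fun u => Φ (u - 1) + δ * W (u - 1)) hx hs hε
    (fun a b _ hab =>
      add_le_add (hΦ (by linarith)) (mul_le_mul_of_nonneg_left (hW (by linarith)) hδ))
    ((hΦc.comp (by fun_prop)).add
      ((hWc.comp (by fun_prop : Continuous fun u : ℝ => u - 1)).const_mul δ))
    (fun a => add_nonneg (hΦ0 _) (mul_nonneg hδ (hW0 _)))
    (fun p hp => by
      rw [le_div_iff₀ (hlp p hp).1, hlD]
      exact mul_le_mul_of_nonneg_left (hlp p hp).2 hs.le)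
    (fun p hp q hq hpq => div_le_div_of_nonneg_left hlD0 (hlp p hp).1
      (Real.log_le_log (Nat.cast_pos.2 (by linarith [(hT p hp).1])) (Nat.cast_le.2 hpq)))
    (fun p hp => (hr.tail_le hp fun q hq => (hT q hq).2).trans (le_of_eq (by
      rw [hlD]
      field_simp)))
    hI
  refine le_trans ?_ (mul_le_mul_of_nonneg_left h
    (prod_nonneg fun q hq => sub_nonneg.2 (hx q hq).2.le))
  rw [defect_recursion x hpar fun p hp => by linarith [(hT p hp).1], mul_sum]
  refine sum_le_sum fun p hp => ?_
  rw [if_pos (hadm p hp)]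
  refine (mul_le_mul_of_nonneg_left (hsub p hp) (hx p hp).1).trans (le_of_eq ?_)
  rw [prod_below_eq (fun q hq => (hx q hq).2) p]
  ring

theorem log_div_prime {D : ℝ} {p : ℕ} (hD : 0 < D) (hp : 2 ≤ p) :
    Real.log (D / p) / Real.log p = Real.log D / Real.log p - 1 := by
  have : (0 : ℝ) < Real.log p := Real.log_pos (Nat.one_lt_cast.2 hp)
  rw [Real.log_div hD.ne' (Nat.cast_ne_zero.2 (by omega)), sub_div, div_self this.ne']

theorem defectClaim_of_ratioBound {x : ℕ → ℝ} {δ ε : ℝ} (hδ : 0 < δ) (hδ1 : δ ≤ 1) (hε : 0 ≤ ε)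
    (hεδ : 10000 * ε ≤ δ) : ∀ (T : Finset ℕ), (∀ p ∈ T, 0 ≤ x p ∧ x p < 1) → RatioBound T x ε →
      ∀ D z : ℝ, 0 < D → 2 ≤ z → (∀ p ∈ T, 2 ≤ p ∧ (p : ℝ) < z) → DefectClaim T x δ D z := by
  classical
  intro T
  induction T using Finset.strongInduction with
  | H T ih =>
    intro hx hr D z hD hz hT
    have hlz : 0 < Real.log z := Real.log_pos (by linarith)
    have hV : 0 ≤ ∏ q ∈ T, (1 - x q) := prod_nonneg fun q hq => sub_nonneg.2 (hx q hq).2.le
    have hsubset : ∀ p ∈ T, T.filter (· < p) ⊂ T := fun p hp =>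
      filter_ssubset.2 ⟨p, hp, lt_irrefl p⟩
    have hlp : ∀ p ∈ T, 0 < Real.log p ∧ Real.log p ≤ Real.log z := fun p hp =>
      ⟨Real.log_pos (Nat.one_lt_cast.2 (hT p hp).1),
        Real.log_le_log (Nat.cast_pos.2 (by linarith [(hT p hp).1])) (hT p hp).2.le⟩
    have hih : ∀ p ∈ T, DefectClaim (T.filter (· < p)) x δ (D / p) p := fun p hp =>
      ih _ (hsubset p hp) (fun q hq => hx q (mem_filter.1 hq).1)
        (hr.mono (filter_subset _ _) hx) _ _
        (div_pos hD (Nat.cast_pos.2 (by linarith [(hT p hp).1])))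
        (Nat.ofNat_le_cast.2 (hT p hp).1) fun q hq =>
          ⟨(hT q (mem_filter.1 hq).1).1, Nat.cast_lt.2 (mem_filter.1 hq).2⟩
    -- the upper defect of the small primes
    have hupper : ∀ (S : Finset ℕ) (y : ℝ), S ⊆ T → 2 ≤ y → (∀ p ∈ S, (p : ℝ) < y) →
        3 ≤ Real.log D / Real.log y →
        defect D 2 1 S x ≤ (∏ q ∈ S, (1 - x q)) * (upperDefect (Real.log D / Real.log y) +
          δ * decay * upperWeight (Real.log D / Real.log y) +
            60 * ε * upperWeight (Real.log D / Real.log y)) := by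
      intro S y hST hy hSy h3
      obtain ⟨s, hs⟩ : ∃ s, s = Real.log D / Real.log y := ⟨_, rfl⟩
      rw [← hs] at h3 ⊢
      have hly : 0 < Real.log y := Real.log_pos (by linarith)
      have hlD : Real.log D = s * Real.log y := by rw [hs, div_mul_cancel₀ _ hly.ne']
      have hx' : ∀ p ∈ S, 0 ≤ x p ∧ x p < 1 := fun p hp => hx p (hST hp)
      have hI : ∀ b, s ≤ b → ∫ u in s..b, (lowerDefect (u - 1) + δ * lowerWeight (u - 1)) ≤
          s * (upperDefect s + δ * decay * upperWeight s) := fun b hb => by
        have hu : Continuous fun u => lowerDefect (u - 1) :=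
          continuous_lowerDefect.comp (by fun_prop)
        have hw : Continuous fun u => lowerWeight (u - 1) :=
          continuous_lowerWeight.comp (by fun_prop)
        rw [intervalIntegral.integral_add (hu.intervalIntegrable _ _)
          ((hw.const_mul δ).intervalIntegrable _ _), intervalIntegral.integral_const_mul, mul_add]
        have h2 := integral_lowerWeight_le (r := s) (b := b) (by linarith)
          (max_le hb (h3.trans hb))
        rw [max_eq_left h3] at h2
        refine add_le_add (integral_lowerDefect_le h3 hb)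
          ((mul_le_mul_of_nonneg_left h2 hδ.le).trans (le_of_eq (by ring)))
      have hpt : ∀ p ∈ S, 3 * Real.log p ≤ s * Real.log y ∧ 3 * Real.log p < s * Real.log y := by
        intro p hp
        have h1 : Real.log p < Real.log y :=
          Real.log_lt_log (Nat.cast_pos.2 (by linarith [(hT p (hST hp)).1])) (hSy p hp)
        constructor <;> nlinarith [(hlp p (hST hp)).1]
      have h := step_le (T := S) (par := 1) (Φ := lowerDefect) (W := lowerWeight) (δ := δ)
        (D := D) (z := y) (fun p hp => ⟨(hT p (hST hp)).1, hSy p hp⟩) hx'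
        (hr.mono hST hx) hε hδ.le (by norm_num) hy (hs ▸ by linarith) antitone_lowerDefect
        continuous_lowerDefect lowerDefect_nonneg antitone_lowerWeight continuous_lowerWeight
        (fun a => (lowerWeight_pos a).le)
        (fun p hp _ => by
          have hp0 : (0 : ℝ) < p := Nat.cast_pos.2 (by linarith [(hT p (hST hp)).1])
          rw [filter_singleton, if_pos le_rfl, prod_singleton, ← pow_succ',
            ← Real.log_lt_log_iff (by positivity) hD, Real.log_pow, hlD]
          exact_mod_cast (hpt p hp).2)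
        (fun p hp => by
          have hp' := hST hp
          have hc := (ih (S.filter (· < p))
            (lt_of_le_of_lt (filter_subset_filter _ hST) (hsubset p hp'))
            (fun q hq => hx' q (mem_filter.1 hq).1) (hr.mono ((filter_subset _ _).trans hST) hx)
            (D / p) p (div_pos hD (Nat.cast_pos.2 (by linarith [(hT p hp').1])))
            (Nat.ofNat_le_cast.2 (hT p hp').1) (fun q hq =>
              ⟨(hT q (hST (mem_filter.1 hq).1)).1, Nat.cast_lt.2 (mem_filter.1 hq).2⟩)).2 ?_
          · rwa [log_div_prime hD (hT p hp').1] at hc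
          · rw [Real.log_div hD.ne' (Nat.cast_ne_zero.2 (by linarith [(hT p hp').1])), hlD]
            linarith [(hpt p hp).1])
        (I := s * (upperDefect s + δ * decay * upperWeight s)) (hs ▸ hI)
      rw [← hs] at h
      refine h.trans (mul_le_mul_of_nonneg_left ?_
        (prod_nonneg fun q hq => sub_nonneg.2 (hx' q hq).2.le))
      rw [div_mul_eq_mul_div, mul_left_comm, mul_div_cancel_left₀ _ (by linarith : s ≠ 0)]
      have h1 := lowerWeight_pred h3
      have h2 := lowerDefect_le (s - 1)
      have h4 := upperDefect_le s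
      have hu := upperWeight_pos s
      rw [h1] at h2
      rw [h1]
      have h5 : ε * lowerDefect (s - 1) ≤ ε * (33 * upperWeight s) :=
        mul_le_mul_of_nonneg_left (h2.trans (by nlinarith [decay_lt_one])) hε
      have h6 : ε * (δ * (3 * decay * upperWeight s)) ≤ ε * (3 * upperWeight s) :=
        mul_le_mul_of_nonneg_left
          (by nlinarith [decay_lt_one, decay_pos, mul_nonneg hδ.le hu.le]) hε
      have h7 : ε * upperDefect s ≤ ε * (11 * upperWeight s) := mul_le_mul_of_nonneg_left h4 hε
      have h8 : ε * (δ * decay * upperWeight s) ≤ ε * upperWeight s := by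
        refine mul_le_mul_of_nonneg_left (mul_le_of_le_one_left hu.le ?_) hε
        nlinarith [decay_lt_one, decay_pos]
      nlinarith [mul_nonneg hε hu.le]
    constructor
    · intro hs1
      obtain ⟨s, hs⟩ : ∃ s, s = Real.log D / Real.log z := ⟨_, rfl⟩
      rw [← hs]
      have h1 : 1 ≤ s := by rw [hs, le_div_iff₀ hlz, one_mul]; exact hs1
      have hlD : Real.log D = s * Real.log z := by rw [hs, div_mul_cancel₀ _ hlz.ne']
      have hu := upperWeight_pos s
      rcases le_or_gt 3 s with h3 | h3
      · have h := hupper T z Subset.rfl hz (fun p hp => (hT p hp).2) (hs ▸ h3)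
        rw [← hs] at h
        refine h.trans (mul_le_mul_of_nonneg_left ?_ hV)
        rw [decay]
        nlinarith [mul_le_mul_of_nonneg_right hεδ hu.le]
      obtain ⟨y, hy⟩ : ∃ y, y = Real.exp (Real.log D / 3) := ⟨_, rfl⟩
      have hly : Real.log y = Real.log D / 3 := by rw [hy, Real.log_exp]
      obtain ⟨A, hA⟩ : ∃ A, A = T.filter fun p : ℕ => (p : ℝ) < y := ⟨_, rfl⟩
      have hAT : A ⊆ T := hA ▸ filter_subset _ _
      have hadm : ∀ p ∈ T, (Admissible D 2 1 {p} p ↔ p ∈ A) := by
        intro p hp
        have hp0 : (0 : ℝ) < p := Nat.cast_pos.2 (by linarith [(hT p hp).1])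
        rw [Admissible, filter_singleton, if_pos le_rfl, card_singleton, prod_singleton,
          hA, mem_filter, hy, ← Real.log_lt_iff_lt_exp hp0, ← pow_succ',
          ← Real.log_lt_log_iff (by positivity) hD, Real.log_pow]
        constructor
        · intro h
          have := h rfl
          push_cast at this
          exact ⟨hp, by linarith⟩
        · intro h _
          push_cast
          linarith [h.2]
      have hfilt : ∀ p ∈ A, T.filter (· < p) = A.filter (· < p) := fun p hp => by
        rw [hA, filter_filter]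
        rw [hA, mem_filter] at hp
        exact filter_congr fun q _ => ⟨fun h => ⟨(Nat.cast_lt.2 h).trans hp.2, h⟩, fun h => h.2⟩
      have hx' : ∀ p ∈ A, 0 ≤ x p ∧ x p < 1 := fun p hp => hx p (hAT hp)
      have hdef : defect D 2 1 T x =
          (∏ q ∈ A, (1 - x q)) - (∏ q ∈ T, (1 - x q)) + defect D 2 1 A x := by
        rw [defect_recursion x (by norm_num) fun p hp => by linarith [(hT p hp).1],
          defect_recursion x (by norm_num) fun p hp => by linarith [(hT p (hAT hp)).1],
          prod_one_sub_ordered A, prod_one_sub_ordered T, ← sum_sdiff hAT, ← sum_sdiff hAT,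
          sum_congr rfl fun p hp => by rw [if_neg fun h => (mem_sdiff.1 hp).2
            ((hadm p (mem_sdiff.1 hp).1).1 h)]]
        have e1 : ∑ p ∈ A, x p * ∏ q ∈ T.filter (· < p), (1 - x q) =
            ∑ p ∈ A, x p * ∏ q ∈ A.filter (· < p), (1 - x q) :=
          sum_congr rfl fun p hp => by rw [hfilt p hp]
        have e2 : (∑ p ∈ A, x p * if Admissible D 2 1 {p} p then
              defect (D / p) 2 (1 - 1) (T.filter (· < p)) x
            else ∏ q ∈ T.filter (· < p), (1 - x q)) =
            ∑ p ∈ A, x p * if Admissible D 2 1 {p} p then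
              defect (D / p) 2 (1 - 1) (A.filter (· < p)) x
            else ∏ q ∈ A.filter (· < p), (1 - x q) :=
          sum_congr rfl fun p hp => by rw [hfilt p hp]
        rw [e1, e2]
        ring
      have hVA : ∏ q ∈ A, (1 - x q) ≤ (∏ q ∈ T, (1 - x q)) * ((1 + ε) * (3 / s)) := by
        have hinv : ∏ q ∈ T \ A, (1 - x q)⁻¹ ≤ (1 + ε) * (3 / s) := by
          rcases (T \ A).eq_empty_or_nonempty with he | hne
          · rw [he, prod_empty]
            nlinarith [(one_le_div (show 0 < s by linarith)).2 h3.le]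
          · obtain ⟨r, hr'⟩ : ∃ r, r = (T \ A).min' hne := ⟨_, rfl⟩
            have hrm := mem_sdiff.1 (hr' ▸ (T \ A).min'_mem hne)
            have hry : y ≤ (r : ℝ) := not_lt.1 fun h => hrm.2 (hA ▸ mem_filter.2 ⟨hrm.1, h⟩)
            refine (prod_le_prod_of_subset_of_one_le (fun q hq => mem_filter.2
              ⟨(mem_sdiff.1 hq).1, hr' ▸ (T \ A).min'_le q hq, (hT q (mem_sdiff.1 hq).1).2⟩)
              (fun q hq => inv_nonneg.2 (sub_nonneg.2 (hx q (mem_sdiff.1 hq).1).2.le))
              fun q hq _ => one_le_inv_iff₀.2 ⟨sub_pos.2 (hx q (mem_filter.1 hq).1).2,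
                sub_le_self _ (hx q (mem_filter.1 hq).1).1⟩).trans
              ((hr r hrm.1 z (hT r hrm.1).2.le).trans ?_)
            rw [mul_div_assoc]
            refine mul_le_mul_of_nonneg_left ?_ (by linarith)
            have hly0 : Real.log D / 3 ≤ Real.log r :=
              hly ▸ Real.log_le_log (hy ▸ Real.exp_pos _) hry
            rw [div_le_div_iff₀ (hlp r hrm.1).1 (by linarith)]
            linarith
        refine le_trans (le_of_eq ?_) (mul_le_mul_of_nonneg_left hinv hV)
        rw [← prod_sdiff hAT, prod_inv_distrib]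
        field_simp [(prod_pos fun q hq => sub_pos.2 (hx q (mem_sdiff.1 hq).1).2).ne']
      have hVA0 : 0 ≤ ∏ q ∈ A, (1 - x q) := prod_nonneg fun q hq => sub_nonneg.2 (hx' q hq).2.le
      have hA3 : defect D 2 1 A x ≤
          (∏ q ∈ A, (1 - x q)) * (upperDefect 3 + δ * decay + 60 * ε) := by
        rcases le_or_gt 2 y with hy2 | hy2
        · have h := hupper A y hAT hy2 (fun p hp => by rw [hA, mem_filter] at hp; exact hp.2)
          have e : Real.log D / Real.log y = 3 := by
            rw [hly]
            field_simp [(show Real.log D ≠ 0 by rw [hlD]; positivity)]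
          rw [e, upperWeight_eq_exp le_rfl, sub_self, Real.exp_zero, mul_one, mul_one] at h
          exact h le_rfl
        · have he : A = ∅ := eq_empty_of_forall_notMem fun p hp => by
            rw [hA, mem_filter] at hp
            have : (2 : ℝ) ≤ p := Nat.ofNat_le_cast.2 (hT p hp.1).1
            linarith [hp.2]
          rw [he, defect, sum_empty, prod_empty, one_mul]
          linarith [upperDefect_nonneg 3, mul_pos hδ decay_pos,
            mul_nonneg hε (by norm_num : (0 : ℝ) ≤ 1)]
      rw [hdef]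
      have hFs : upperDefect 3 = s / 3 * (1 + upperDefect s) - 1 := by
        have := upperDefect_of_le_three h1 h3.le
        rw [linearConst] at this
        linarith
      obtain ⟨Q, hQ⟩ : ∃ Q, Q = 1 + upperDefect 3 + δ * decay + 60 * ε := ⟨_, rfl⟩
      have hQ0 : 0 ≤ Q := by
        rw [hQ]
        linarith [upperDefect_nonneg 3, mul_pos hδ decay_pos]
      have h6 := mul_le_mul_of_nonneg_right hVA hQ0
      have h7 : (1 + ε) * (3 / s) * Q - 1 ≤ upperDefect s + δ * upperWeight s := by
        have e : (3 / s) * Q = 1 + upperDefect s + (δ * decay + 60 * ε) * upperWeight s := by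
          rw [hQ, hFs, upperWeight_eq_inv h1 h3.le]
          field_simp
          ring
        rw [mul_assoc, e]
        have hu1 : 1 ≤ upperWeight s := by
          rw [upperWeight_eq_inv h1 h3.le]
          exact (one_le_div (by linarith)).2 h3.le
        have h8 : upperDefect s ≤ 33 := by linarith [upperDefect_le s, upperWeight_le s]
        have h9 : δ * decay + 60 * ε ≤ 1 + 60 * ε := by nlinarith [decay_lt_one]
        have h10 := mul_le_mul_of_nonneg_right h9 hu.le
        have h11 : ε * ε ≤ ε := mul_le_of_le_one_left hε (by linarith)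
        rw [decay] at *
        nlinarith [mul_le_mul_of_nonneg_right hεδ hu.le, mul_nonneg hε (sub_nonneg.2 hu1),
          mul_le_mul_of_nonneg_right h11 hu.le]
      have h12 := mul_le_mul_of_nonneg_left h7 hV
      rw [hQ] at h6 h12
      linarith
    · intro hs2
      obtain ⟨s, hs⟩ : ∃ s, s = Real.log D / Real.log z := ⟨_, rfl⟩
      rw [← hs]
      have h2 : 2 ≤ s := by rw [hs, le_div_iff₀ hlz]; exact hs2
      have hI : ∀ b, s ≤ b → ∫ u in s..b, (upperDefect (u - 1) + δ * upperWeight (u - 1)) ≤
          s * (lowerDefect s + δ * decay * lowerWeight s) := fun b hb => by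
        have hu : Continuous fun u => upperDefect (u - 1) :=
          continuous_upperDefect.comp (by fun_prop)
        have hw : Continuous fun u => upperWeight (u - 1) :=
          continuous_upperWeight.comp (by fun_prop)
        rw [intervalIntegral.integral_add (hu.intervalIntegrable _ _)
          ((hw.const_mul δ).intervalIntegrable _ _), intervalIntegral.integral_const_mul, mul_add]
        refine add_le_add (integral_upperDefect_le h2 hb)
          ((mul_le_mul_of_nonneg_left (integral_upperWeight_le h2 hb) hδ.le).trans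
            (le_of_eq (by ring)))
      have h := step_le (T := T) (par := 0) (Φ := upperDefect) (W := upperWeight) (δ := δ)
        (D := D) (z := z) hT hx hr hε hδ.le (by norm_num) hz (hs ▸ by linarith)
        antitone_upperDefect continuous_upperDefect upperDefect_nonneg antitone_upperWeight
        continuous_upperWeight (fun a => (upperWeight_pos a).le)
        (fun p _ h => absurd h (by rw [filter_singleton, if_pos le_rfl, card_singleton]; norm_num))
        (fun p hp => by
          have hc := (hih p hp).1 ?_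
          · rwa [log_div_prime hD (hT p hp).1] at hc
          · rw [Real.log_div hD.ne' (Nat.cast_ne_zero.2 (by linarith [(hT p hp).1]))]
            linarith [(hlp p hp).2])
        (I := s * (lowerDefect s + δ * decay * lowerWeight s)) (hs ▸ hI)
      rw [← hs] at h
      refine h.trans (mul_le_mul_of_nonneg_left ?_ hV)
      rw [div_mul_eq_mul_div, mul_left_comm, mul_div_cancel_left₀ _ (by linarith : s ≠ 0)]
      have hv := lowerWeight_pos s
      have h1 := upperWeight_pred_le h2
      have hu1 := upperWeight_pos (s - 1)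
      have h5 : ε * upperDefect (s - 1) ≤ ε * (88 * lowerWeight s) :=
        mul_le_mul_of_nonneg_left (by linarith [upperDefect_le (s - 1)]) hε
      have h6 : ε * (δ * upperWeight (s - 1)) ≤ ε * (8 * lowerWeight s) :=
        mul_le_mul_of_nonneg_left ((mul_le_of_le_one_left hu1.le hδ1).trans h1) hε
      have h7 : ε * lowerDefect s ≤ ε * (11 * lowerWeight s) :=
        mul_le_mul_of_nonneg_left (lowerDefect_le s) hε
      have h8 : ε * (δ * decay * lowerWeight s) ≤ ε * lowerWeight s := by
        refine mul_le_mul_of_nonneg_left (mul_le_of_le_one_left hv.le ?_) hε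
        nlinarith [decay_lt_one, decay_pos]
      have h9 := mul_le_mul_of_nonneg_right hεδ hv.le
      rw [decay] at *
      linarith [mul_nonneg hδ.le hv.le, mul_nonneg hε hv.le]

/-- **The main terms of the linear sieve.** -/
theorem defect_linear_le {T : Finset ℕ} {x : ℕ → ℝ} {δ ε D z : ℝ} (hδ : 0 < δ) (hδ1 : δ ≤ 1)
    (hε : 0 ≤ ε) (hεδ : 30000 * ε ≤ δ) (hx : ∀ p ∈ T, 0 ≤ x p ∧ x p < 1)
    (hr : RatioBound T x ε) (hD : 0 < D) (hz : 2 ≤ z) (hT : ∀ p ∈ T, 2 ≤ p ∧ (p : ℝ) < z) :
    (Real.log z ≤ Real.log D → defect D 2 1 T x ≤ (∏ q ∈ T, (1 - x q)) *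
      (upperDefect (Real.log D / Real.log z) + δ)) ∧
    (2 * Real.log z ≤ Real.log D → defect D 2 0 T x ≤ (∏ q ∈ T, (1 - x q)) *
      (lowerDefect (Real.log D / Real.log z) + δ)) := by
  have h := defectClaim_of_ratioBound (x := x) (δ := δ / 3) (by linarith) (by linarith) hε
    (by linarith) T hx hr D z hD hz hT
  have hV : 0 ≤ ∏ q ∈ T, (1 - x q) := prod_nonneg fun q hq => sub_nonneg.2 (hx q hq).2.le
  refine ⟨fun hs => (h.1 hs).trans (mul_le_mul_of_nonneg_left ?_ hV),
    fun hs => (h.2 hs).trans (mul_le_mul_of_nonneg_left ?_ hV)⟩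
  · nlinarith [upperWeight_le (Real.log D / Real.log z)]
  · nlinarith [lowerWeight_le (Real.log D / Real.log z)]

end FA.LinearSieve
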