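import Fermat.Agent.CombinatorialSieve.ShiftedPrimes
import Fermat.Agent.LinearSieve.Bound

/-!
# Mertens' theorem with a vanishing error

`∑_{a ≤ p < b} 1 / p ≤ log log b - log log a + C / log a`, so `p ↦ 1 / (p - 1)` satisfies the
condition of the linear sieve with any `ε`, on the primes large enough.
-/

set_option autoImplicit false

noncomputable section

namespace FA.LinearSieve

open Finset Filter
open FA.CombinatorialSieve
open scoped ArithmeticFunction.vonMangoldt Topology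

theorem exists_sum_prime_inv_Ioc_le : ∃ C : ℝ, 0 ≤ C ∧ ∀ m n : ℕ, 2 ≤ m → m ≤ n →
    ∑ q ∈ (Ioc m n).filter Nat.Prime, (q : ℝ)⁻¹ ≤
      Real.log (Real.log n) - Real.log (Real.log m) + C / Real.log m := by
  obtain ⟨C₁, hC₁⟩ := ErdosKac.exists_abs_sum_log_div_sub_le
  have hC₁0 : 0 ≤ C₁ := (abs_nonneg _).trans (hC₁ 1 le_rfl)
  refine ⟨2 * C₁, by linarith, fun m n hm hmn => ?_⟩
  obtain ⟨G, hG⟩ : ∃ G : ℕ → ℝ, G = fun k => ∑ q ∈ (Ioc 0 k).filter Nat.Prime,
      Real.log q / q := ⟨_, rfl⟩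
  have hGb : ∀ k, 1 ≤ k → |G k - Real.log k| ≤ C₁ := fun k hk => by
    refine le_of_eq_of_le ?_ (hC₁ k hk)
    rw [hG]
    rfl
  have hlpos : ∀ k : ℕ, 2 ≤ k → (0 : ℝ) < Real.log k := fun k hk =>
    Real.log_pos (Nat.one_lt_cast.2 (by omega))
  have key : ∑ q ∈ (Ioc m n).filter Nat.Prime, (q : ℝ)⁻¹ ≤
      (G n / Real.log n - G m / Real.log m) + (Real.log (Real.log n) - Real.log (Real.log m)) +
        (C₁ / Real.log m - C₁ / Real.log n) := by
    induction n, hmn using Nat.le_induction with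
    | base => simp
    | succ k hk ih =>
      have h0 := hlpos k (hm.trans hk)
      have h1 := hlpos (k + 1) (by omega)
      have hle : Real.log k ≤ Real.log (k + 1 : ℕ) :=
        Real.log_le_log (Nat.cast_pos.2 (by omega)) (Nat.cast_le.2 (Nat.le_succ k))
      have hstep : ∑ q ∈ (Ioc m (k + 1)).filter Nat.Prime, (q : ℝ)⁻¹ =
          (∑ q ∈ (Ioc m k).filter Nat.Prime, (q : ℝ)⁻¹) +
            (G (k + 1) - G k) / Real.log (k + 1 : ℕ) := by
        rw [hG]
        dsimp only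
        simp only [sum_filter, sum_Ioc_succ_top hk, sum_Ioc_succ_top (Nat.zero_le k),
          add_sub_cancel_left]
        congr 1
        split_ifs
        · rw [div_div, mul_comm, ← div_div, div_self h1.ne', one_div]
        · simp
      rw [hstep]
      have hkey : G k * ((Real.log k)⁻¹ - (Real.log (k + 1 : ℕ))⁻¹) ≤
          Real.log (Real.log (k + 1 : ℕ)) - Real.log (Real.log k) +
            C₁ * ((Real.log k)⁻¹ - (Real.log (k + 1 : ℕ))⁻¹) := by
        refine (mul_le_mul_of_nonneg_right (show G k ≤ Real.log k + C₁ by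
          linarith [(abs_le.1 (hGb k (by omega))).2]) (sub_nonneg.2 (inv_anti₀ h0 hle))).trans ?_
        rw [add_mul, add_le_add_iff_right, mul_sub, mul_inv_cancel₀ h0.ne', ← div_eq_mul_inv,
          ← Real.log_div h1.ne' h0.ne']
        have h2 := Real.one_sub_inv_le_log_of_pos (div_pos h1 h0)
        rwa [inv_div] at h2
      simp only [div_eq_mul_inv] at ih ⊢
      linarith
  have h1 : G n / Real.log n ≤ 1 + C₁ / Real.log n := by
    rw [one_add_div (hlpos n (hm.trans hmn)).ne']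
    exact div_le_div_of_nonneg_right (by linarith [(abs_le.1 (hGb n (by omega))).2])
      (hlpos n (hm.trans hmn)).le
  have h2 : 1 - C₁ / Real.log m ≤ G m / Real.log m := by
    rw [one_sub_div (hlpos m hm).ne']
    exact div_le_div_of_nonneg_right (by linarith [(abs_le.1 (hGb m (by omega))).1]) (hlpos m hm).le
  rw [two_mul, add_div]
  linarith

/-- **Mertens**, sharp at infinity. -/
theorem exists_sum_prime_inv_le : ∃ C : ℝ, 0 ≤ C ∧ ∀ (T : Finset ℕ) (a b : ℝ), 4 ≤ a → a ≤ b →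
    (∀ p ∈ T, p.Prime ∧ a ≤ p ∧ (p : ℝ) < b) →
      ∑ p ∈ T, (p : ℝ)⁻¹ ≤ Real.log (Real.log b) - Real.log (Real.log a) + C / Real.log a := by
  obtain ⟨C, hC, h⟩ := exists_sum_prime_inv_Ioc_le
  refine ⟨2 * (C + 1), by linarith, fun T a b ha hab hT => ?_⟩
  have hla : 0 < Real.log a := Real.log_pos (by linarith)
  have hlab : Real.log (Real.log a) ≤ Real.log (Real.log b) :=
    Real.log_le_log hla (Real.log_le_log (by linarith) hab)
  have hC2 : 0 ≤ 2 * (C + 1) / Real.log a := by positivity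
  rcases T.eq_empty_or_nonempty with rfl | ⟨p₀, hp₀⟩
  · rw [sum_empty]
    linarith
  obtain ⟨m, hm⟩ : ∃ m, m = ⌈a⌉₊ - 1 := ⟨_, rfl⟩
  obtain ⟨n, hn⟩ : ∃ n, n = ⌈b⌉₊ - 1 := ⟨_, rfl⟩
  have hca : 4 ≤ ⌈a⌉₊ := by exact_mod_cast ha.trans (Nat.le_ceil a)
  have hm2 : 3 ≤ m := by omega
  have hTn : ∀ p ∈ T, m < p ∧ p ≤ n := fun p hp => by
    have h1 := Nat.lt_ceil.2 (hT p hp).2.2
    have h2 : ⌈a⌉₊ ≤ p := Nat.ceil_le.2 (hT p hp).2.1
    omega
  have hmn : m ≤ n := ((hTn p₀ hp₀).1.trans_le (hTn p₀ hp₀).2).le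
  refine (sum_le_sum_of_subset_of_nonneg (fun p hp => mem_filter.2
    ⟨mem_Ioc.2 (hTn p hp), (hT p hp).1⟩) fun p _ _ => by positivity).trans
    ((h m n (by omega) hmn).trans ?_)
  have hm3 : (3 : ℝ) ≤ m := Nat.ofNat_le_cast.2 hm2
  have hlm : 1 ≤ Real.log m := by
    rw [Real.le_log_iff_exp_le (by linarith)]
    linarith [Real.exp_one_lt_d9]
  have ham : a ≤ (m : ℝ) + 1 :=
    (Nat.le_ceil a).trans (by exact_mod_cast (show ⌈a⌉₊ ≤ m + 1 by omega))
  have h1 : Real.log (Real.log n) ≤ Real.log (Real.log b) := by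
    refine Real.log_le_log (Real.log_pos (Nat.one_lt_cast.2 (by omega)))
      (Real.log_le_log (Nat.cast_pos.2 (by omega)) ?_)
    exact (Nat.lt_ceil.1 (show n < ⌈b⌉₊ by omega)).le
  have h2 : Real.log (Real.log a) ≤ Real.log (Real.log m) + 1 / Real.log m := by
    have hm1 : (1 : ℝ) / m ≤ 1 := by
      rw [div_le_one (by linarith)]
      linarith
    have h3 : Real.log a ≤ Real.log m + 1 := by
      refine (Real.log_le_log (by linarith) ham).trans ?_
      rw [show (m : ℝ) + 1 = m * (1 + 1 / m) by field_simp,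
        Real.log_mul (by linarith) (by positivity)]
      linarith [Real.log_le_sub_one_of_pos (show (0 : ℝ) < 1 + 1 / m by positivity)]
    refine (Real.log_le_log hla h3).trans ?_
    rw [show Real.log m + 1 = Real.log m * (1 + 1 / Real.log m) by field_simp,
      Real.log_mul (by linarith) (by positivity)]
    linarith [Real.log_le_sub_one_of_pos (show (0 : ℝ) < 1 + 1 / Real.log m by positivity)]
  have h4 : (C + 1) / Real.log m ≤ 2 * (C + 1) / Real.log a := by
    rw [div_le_div_iff₀ (by linarith) hla]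
    have h5 : Real.log a ≤ 2 * Real.log m := by
      have h6 := Real.log_le_log (by linarith) (ham.trans (show (m : ℝ) + 1 ≤ m * m by nlinarith))
      rw [Real.log_mul (by linarith) (by linarith)] at h6
      linarith
    linarith [mul_le_mul_of_nonneg_left h5 (show 0 ≤ C + 1 by linarith)]
  rw [add_div] at h4
  linarith

theorem sum_inv_sq_ge_le {T : Finset ℕ} {r : ℕ} (hr : 2 ≤ r) (hT : ∀ p ∈ T, r ≤ p) :
    ∑ p ∈ T, ((p : ℝ) ^ 2)⁻¹ ≤ 2 / r := by
  refine (sum_le_sum_of_subset_of_nonneg (t := Ioo (r - 1) (T.sup id + 1)) (fun p hp => ?_)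
    fun p _ _ => by positivity).trans ((sum_Ioo_inv_sq_le _ _).trans_eq ?_)
  · rw [mem_Ioo]
    have := hT p hp
    exact ⟨by omega, Nat.lt_succ_of_le (le_sup (f := id) hp)⟩
  · rw [Nat.cast_sub (by omega)]
    push_cast
    ring

/-- `p ↦ 1 / φ p` is linear above a threshold. -/
theorem exists_ratioBound_invPhi {ε : ℝ} (hε : 0 < ε) : ∃ w : ℝ, 4 ≤ w ∧
    ∀ T : Finset ℕ, (∀ p ∈ T, p.Prime ∧ w ≤ p) → RatioBound T invPhi ε := by
  obtain ⟨C, hC, h⟩ := exists_sum_prime_inv_le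
  obtain ⟨η, hη⟩ : ∃ η, η = Real.log (1 + ε) := ⟨_, rfl⟩
  have hη0 : 0 < η := hη ▸ Real.log_pos (by linarith)
  refine ⟨max 4 (max (Real.exp (2 * C / η)) (24 / η)), le_max_left _ _, fun T hT r hr b hb => ?_⟩
  have hrw := (hT r hr).2
  have hr4 : (4 : ℝ) ≤ r := le_of_max_le_left hrw
  have hlr : 0 < Real.log r := Real.log_pos (by linarith)
  have hlb : Real.log r ≤ Real.log b := Real.log_le_log (by linarith) hb
  have hS : ∀ q ∈ T.filter (fun q : ℕ => r ≤ q ∧ (q : ℝ) < b), (4 : ℝ) ≤ q := fun q hq =>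
    hr4.trans (Nat.cast_le.2 (mem_filter.1 hq).2.1)
  refine (prod_le_prod (g := fun q : ℕ => Real.exp ((q : ℝ)⁻¹ + 6 * ((q : ℝ) ^ 2)⁻¹))
    (fun q hq => ?_) fun q hq => ?_).trans ?_
  all_goals try
    have hq4 := hS q hq
    rw [invPhi_apply, Nat.totient_prime (hT q (mem_filter.1 hq).1).1,
      Nat.cast_sub (hT q (mem_filter.1 hq).1).1.one_le, Nat.cast_one]
  · exact inv_nonneg.2 (sub_nonneg.2 (inv_le_one_of_one_le₀ (by linarith)))
  · refine le_trans ?_ (Real.add_one_le_exp _)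
    have e : (1 - ((q : ℝ) - 1)⁻¹)⁻¹ = 1 + 1 / ((q : ℝ) - 2) := by
      have h1 : (q : ℝ) - 1 ≠ 0 := by linarith
      have h2 : (q : ℝ) - 2 ≠ 0 := by linarith
      refine inv_eq_of_mul_eq_one_right ?_
      field_simp
      ring
    rw [e, add_comm (1 : ℝ), add_le_add_iff_right]
    rw [show (q : ℝ)⁻¹ + 6 * ((q : ℝ) ^ 2)⁻¹ = ((q : ℝ) + 6) / (q : ℝ) ^ 2 by field_simp,
      div_le_div_iff₀ (by linarith) (by positivity)]
    nlinarith
  · rw [← Real.exp_sum, sum_add_distrib, ← mul_sum]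
    have h1 := h (T.filter fun q : ℕ => r ≤ q ∧ (q : ℝ) < b) r b hr4 hb fun q hq =>
      ⟨(hT q (mem_filter.1 hq).1).1, Nat.cast_le.2 (mem_filter.1 hq).2.1, (mem_filter.1 hq).2.2⟩
    have h2 := sum_inv_sq_ge_le (T := T.filter fun q : ℕ => r ≤ q ∧ (q : ℝ) < b) (r := r)
      (hT r hr).1.two_le fun q hq => (mem_filter.1 hq).2.1
    have h3 : C / Real.log r ≤ η / 2 := by
      have h4 := (Real.le_log_iff_exp_le (by linarith)).2
        (le_of_max_le_left (le_of_max_le_right hrw))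
      rw [div_le_iff₀ hη0] at h4
      rw [div_le_iff₀ hlr]
      linarith
    have h5 : 6 * (2 / (r : ℝ)) ≤ η / 2 := by
      have h6 := le_of_max_le_right (le_of_max_le_right hrw)
      rw [div_le_iff₀ hη0] at h6
      rw [mul_div_assoc', div_le_iff₀ (by linarith)]
      linarith
    refine (Real.exp_le_exp.2 (show _ ≤ η + (Real.log (Real.log b) - Real.log (Real.log r)) by
      linarith)).trans (le_of_eq ?_)
    rw [Real.exp_add, hη, Real.exp_log (by linarith), Real.exp_sub, Real.exp_log (by linarith),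
      Real.exp_log hlr, mul_div_assoc]

end FA.LinearSieve
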