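import Fermat.Agent.LinearSieve.Bound
import Fermat.Agent.CombinatorialSieve.Sieve

/-!
# The linear sieve of Jurkat and Richert

The primes below `w` are sifted exactly, which multiplies the level by their product; above `w`
the beta sieve with `β = 2` is used.
-/

set_option autoImplicit false

noncomputable section

namespace FA.LinearSieve

open Finset
open FA.CombinatorialSieve
open scoped ArithmeticFunction.Moebius

open Classical in
/-- `μ` on the small primes, the beta weight on the large ones. -/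
def mixedWeight (D w : ℝ) (par : ℕ) (d : ℕ) : ℝ :=
  if Squarefree d ∧ Kept D 2 par (d.primeFactors.filter fun p : ℕ => w ≤ p) then (μ d : ℝ) else 0

/-- The sieving primes `≥ w`. -/
def largePrimes (S : BoundingSieve) (w : ℝ) : Finset ℕ :=
  S.prodPrimes.primeFactors.filter fun p : ℕ => w ≤ p

/-- The product of the sieving primes `< w`. -/
def smallProduct (S : BoundingSieve) (w : ℝ) : ℕ :=
  ∏ p ∈ S.prodPrimes.primeFactors.filter (fun p : ℕ => ¬ w ≤ p), p

theorem smallProduct_pos (S : BoundingSieve) (w : ℝ) : 0 < smallProduct S w :=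
  prod_pos fun _ hp => (Nat.prime_of_mem_primeFactors (mem_filter.1 hp).1).pos

theorem sum_mixedWeight_mul {P : ℕ} (hP : Squarefree P) (D w : ℝ) (par : ℕ) (f g : ℕ → ℝ)
    (hf : ∀ d ∈ P.divisors, f d = ∏ p ∈ d.primeFactors, g p) :
    ∑ d ∈ P.divisors, mixedWeight D w par d * f d =
      (∏ p ∈ P.primeFactors.filter (fun p : ℕ => ¬ w ≤ p), (1 - g p)) *
        truncSum D 2 par (P.primeFactors.filter fun p : ℕ => w ≤ p) g := by
  classical
  obtain ⟨S, hS⟩ : ∃ S, S = P.primeFactors.filter (fun p : ℕ => ¬ w ≤ p) := ⟨_, rfl⟩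
  obtain ⟨L, hL⟩ : ∃ L, L = P.primeFactors.filter (fun p : ℕ => w ≤ p) := ⟨_, rfl⟩
  rw [← hS, ← hL]
  have hexp : ∏ p ∈ S, (1 - g p) = ∑ W ∈ S.powerset, ∏ p ∈ W, -g p := by
    rw [← prod_one_add]
    simp_rw [sub_eq_add_neg]
  rw [hexp, truncSum, sum_mul_sum, ← sum_product']
  have hunion : ∀ c ∈ S.powerset ×ˢ L.powerset, c.1 ∪ c.2 ⊆ P.primeFactors ∧
      (c.1 ∪ c.2).filter (fun p : ℕ => ¬ w ≤ p) = c.1 ∧
      (c.1 ∪ c.2).filter (fun p : ℕ => w ≤ p) = c.2 := by
    intro c hc
    simp only [mem_product, mem_powerset, hS, hL] at hc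
    refine ⟨union_subset (hc.1.trans (filter_subset _ _)) (hc.2.trans (filter_subset _ _)), ?_, ?_⟩
    · rw [filter_union, filter_true_of_mem fun q hq => (mem_filter.1 (hc.1 hq)).2,
        filter_false_of_mem fun q hq => not_not.2 (mem_filter.1 (hc.2 hq)).2, union_empty]
    · rw [filter_union, filter_false_of_mem fun q hq => (mem_filter.1 (hc.1 hq)).2,
        filter_true_of_mem fun q hq => (mem_filter.1 (hc.2 hq)).2, empty_union]
  refine sum_nbij' (fun d => (d.primeFactors.filter (fun p : ℕ => ¬ w ≤ p),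
    d.primeFactors.filter (fun p : ℕ => w ≤ p))) (fun c => ∏ p ∈ c.1 ∪ c.2, p) ?_ ?_ ?_ ?_ ?_
  · intro d hd
    simp only [mem_product, mem_powerset, hS, hL]
    have h := Nat.primeFactors_mono (Nat.dvd_of_mem_divisors hd) hP.ne_zero
    exact ⟨filter_subset_filter _ h, filter_subset_filter _ h⟩
  · intro c hc
    rw [Nat.mem_divisors]
    exact ⟨(Nat.prod_primeFactors_of_squarefree hP) ▸ prod_dvd_prod_of_subset _ _ _ (hunion c hc).1,
      hP.ne_zero⟩
  · intro d hd
    dsimp only
    rw [union_comm, ← filter_or, filter_true_of_mem fun q _ => em _]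
    exact Nat.prod_primeFactors_of_squarefree (hP.squarefree_of_dvd (Nat.dvd_of_mem_divisors hd))
  · intro c hc
    rw [Nat.primeFactors_prod fun p hp => Nat.prime_of_mem_primeFactors ((hunion c hc).1 hp),
      (hunion c hc).2.1, (hunion c hc).2.2]
  · intro d hd
    have hsq := hP.squarefree_of_dvd (Nat.dvd_of_mem_divisors hd)
    rw [mixedWeight, hf d hd]
    dsimp only
    split_ifs with h1 h2 h2
    · rw [moebius_eq_neg_one_pow hsq, ← prod_neg, mul_comm,
        prod_filter_mul_prod_filter_not d.primeFactors (fun p : ℕ => w ≤ p)]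
    · exact absurd h1.2 h2
    · exact absurd ⟨hsq, h2⟩ h1
    · rw [zero_mul, mul_zero]

theorem le_sum_mixedWeight {P : ℕ} (hP : Squarefree P) (D w : ℝ) (n : ℕ) :
    (if P.Coprime n then (1 : ℝ) else 0) ≤
      ∑ d ∈ P.divisors, mixedWeight D w 1 d * if d ∣ n then (1 : ℝ) else 0 := by
  rw [sum_mixedWeight_mul hP D w 1 _ _ fun d hd => dvd_indicator hP n hd,
    ← coprime_indicator hP.ne_zero n,
    ← prod_filter_not_mul_prod_filter P.primeFactors (fun p : ℕ => w ≤ p)]
  exact mul_le_mul_of_nonneg_left (prod_le_truncSum fun p _ => by split_ifs <;> norm_num)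
    (prod_nonneg fun p _ => by split_ifs <;> norm_num)

theorem sum_mixedWeight_le {P : ℕ} (hP : Squarefree P) (D w : ℝ) (n : ℕ) :
    ∑ d ∈ P.divisors, mixedWeight D w 0 d * (if d ∣ n then (1 : ℝ) else 0) ≤
      if P.Coprime n then (1 : ℝ) else 0 := by
  rw [sum_mixedWeight_mul hP D w 0 _ _ fun d hd => dvd_indicator hP n hd,
    ← coprime_indicator hP.ne_zero n,
    ← prod_filter_not_mul_prod_filter P.primeFactors (fun p : ℕ => w ≤ p)]
  exact mul_le_mul_of_nonneg_left (truncSum_le_prod fun p _ => by split_ifs <;> norm_num)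
    (prod_nonneg fun p _ => by split_ifs <;> norm_num)

theorem abs_mixedWeight_le (D w : ℝ) (par d : ℕ) : |mixedWeight D w par d| ≤ 1 := by
  rw [mixedWeight]
  split_ifs
  · exact_mod_cast ArithmeticFunction.abs_moebius_le_one
  · simp

theorem kept_prod_lt_linear {D z : ℝ} {par : ℕ} {U : Finset ℕ} (hpar : par < 2) (hz : 2 ≤ z)
    (hD : 0 < D) (hs : (2 - par) * Real.log z ≤ Real.log D)
    (hU : ∀ q ∈ U, 1 ≤ q ∧ (q : ℝ) < z) (hk : Kept D 2 par U) :
    ((∏ q ∈ U, q : ℕ) : ℝ) < D := by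
  have hlz : 0 < Real.log z := Real.log_pos (by linarith)
  have hlog : ∀ q ∈ U, Real.log q ≤ Real.log z := fun q hq =>
    Real.log_le_log (Nat.cast_pos.2 (hU q hq).1) (hU q hq).2.le
  interval_cases par
  · refine kept_prod_lt le_rfl (by norm_num) hD hlz (by push_cast at hs ⊢; linarith)
      (fun q hq => ⟨(hU q hq).1, hlog q hq⟩) hk
  · push_cast at hs
    have hlD : 0 < Real.log D := by linarith
    refine kept_prod_lt le_rfl (by norm_num) hD (show 0 < Real.log D / 3 by linarith)
      (by push_cast; linarith) (fun q hq => ⟨(hU q hq).1, ?_⟩) hk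
    obtain ⟨m, hm⟩ : ∃ m, m = U.max' ⟨q, hq⟩ := ⟨_, rfl⟩
    have hmU : m ∈ U := hm ▸ U.max'_mem _
    have hm0 : (0 : ℝ) < m := Nat.cast_pos.2 (hU m hmU).1
    have he : U.filter (m ≤ ·) = {m} := by
      ext r
      rw [mem_filter, mem_singleton]
      exact ⟨fun h => le_antisymm (hm ▸ U.le_max' r h.1) h.2, fun h => by
        rw [h]
        exact ⟨hmU, le_rfl⟩⟩
    have h := hk m hmU
    rw [Admissible, he, card_singleton, prod_singleton, ← pow_succ'] at h
    have h3 := Real.log_lt_log (pow_pos hm0 _) (h rfl)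
    rw [Real.log_pow] at h3
    push_cast at h3
    have h4 : Real.log q ≤ Real.log m :=
      Real.log_le_log (Nat.cast_pos.2 (hU q hq).1) (Nat.cast_le.2 (hm ▸ U.le_max' q hq))
    linarith

theorem mixedWeight_eq_zero (S : BoundingSieve) {D z w : ℝ} {par d : ℕ} (hpar : par < 2)
    (hz : 2 ≤ z) (hD : 0 < D) (hs : (2 - par) * Real.log z ≤ Real.log D)
    (hP : ∀ p ∈ S.prodPrimes.primeFactors, (p : ℝ) < z) (hd : d ∣ S.prodPrimes)
    (hle : D * smallProduct S w ≤ (d : ℝ)) : mixedWeight D w par d = 0 := by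
  rw [mixedWeight, if_neg]
  rintro ⟨hsq, hk⟩
  refine (not_lt.2 hle) ?_
  have hsub := Nat.primeFactors_mono hd S.prodPrimes_squarefree.ne_zero
  have h := kept_prod_lt_linear hpar hz hD hs (fun q hq => ⟨(Nat.prime_of_mem_primeFactors
    (mem_filter.1 hq).1).one_le, hP q (hsub (mem_filter.1 hq).1)⟩) hk
  conv_lhs => rw [← Nat.prod_primeFactors_of_squarefree hsq,
    ← prod_filter_mul_prod_filter_not d.primeFactors (fun p : ℕ => w ≤ p), Nat.cast_mul]
  have h2 : ((∏ p ∈ d.primeFactors.filter (fun p : ℕ => ¬ w ≤ p), p : ℕ) : ℝ) ≤ smallProduct S w :=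
    Nat.cast_le.2 (Nat.le_of_dvd (smallProduct_pos S w)
      (prod_dvd_prod_of_subset _ _ _ (filter_subset_filter _ hsub)))
  exact mul_lt_mul h h2 (Nat.cast_pos.2 (prod_pos fun p hp =>
    (Nat.prime_of_mem_primeFactors (mem_filter.1 hp).1).pos)) hD.le

theorem abs_sum_mixed_rem_le (S : BoundingSieve) {D z w : ℝ} {par : ℕ} (hpar : par < 2)
    (hz : 2 ≤ z) (hD : 0 < D) (hs : (2 - par) * Real.log z ≤ Real.log D)
    (hP : ∀ p ∈ S.prodPrimes.primeFactors, (p : ℝ) < z) :
    |∑ d ∈ S.prodPrimes.divisors, mixedWeight D w par d * S.rem d| ≤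
      remSum S (D * smallProduct S w) := by
  classical
  refine (abs_sum_le_sum_abs _ _).trans ?_
  rw [remSum, sum_filter]
  refine sum_le_sum fun d hd => ?_
  split_ifs with h
  · rw [abs_mul]
    exact mul_le_of_le_one_left (abs_nonneg _) (abs_mixedWeight_le _ _ _ _)
  · rw [mixedWeight_eq_zero S hpar hz hD hs hP (Nat.dvd_of_mem_divisors hd) (not_lt.1 h),
      zero_mul, abs_zero]

/-- `F`. -/
def sieveUpperFn (s : ℝ) : ℝ := 1 + upperDefect s

/-- `f`. -/
def sieveLowerFn (s : ℝ) : ℝ := 1 - lowerDefect s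

/-- **The linear sieve.** -/
theorem linear_sieve {δ ε : ℝ} (hδ : 0 < δ) (hδ1 : δ ≤ 1) (hε : 0 ≤ ε) (hεδ : 30000 * ε ≤ δ)
    (S : BoundingSieve) {D z w : ℝ} (hX : 0 ≤ S.totalMass)
    (hP : ∀ p ∈ S.prodPrimes.primeFactors, (p : ℝ) < z) (hz : 2 ≤ z) (hD : 0 < D)
    (hr : RatioBound (largePrimes S w) S.nu ε) :
    (Real.log z ≤ Real.log D → S.siftedSum ≤
      S.totalMass * sieveProduct S * (sieveUpperFn (Real.log D / Real.log z) + δ) +
        remSum S (D * smallProduct S w)) ∧
    (2 * Real.log z ≤ Real.log D →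
      S.totalMass * sieveProduct S * (sieveLowerFn (Real.log D / Real.log z) - δ) -
        remSum S (D * smallProduct S w) ≤ S.siftedSum) := by
  classical
  have hx : ∀ p ∈ S.prodPrimes.primeFactors, 0 ≤ S.nu p ∧ S.nu p < 1 := fun p hp =>
    ⟨(S.nu_pos_of_prime p (Nat.prime_of_mem_primeFactors hp)
      (Nat.dvd_of_mem_primeFactors hp)).le, S.nu_lt_one_of_prime p
      (Nat.prime_of_mem_primeFactors hp) (Nat.dvd_of_mem_primeFactors hp)⟩
  obtain ⟨L, hL⟩ : ∃ L, L = largePrimes S w := ⟨_, rfl⟩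
  rw [← hL] at hr
  have hLs : L ⊆ S.prodPrimes.primeFactors := hL ▸ filter_subset _ _
  obtain ⟨V₀, hV₀⟩ : ∃ V, V = ∏ p ∈ S.prodPrimes.primeFactors.filter (fun p : ℕ => ¬ w ≤ p),
      (1 - S.nu p) := ⟨_, rfl⟩
  have hV00 : 0 ≤ V₀ := hV₀ ▸ prod_nonneg fun p hp => sub_nonneg.2 (hx p (mem_filter.1 hp).1).2.le
  have hV : sieveProduct S = V₀ * ∏ p ∈ L, (1 - S.nu p) := by
    rw [hV₀, hL, largePrimes, sieveProduct, prod_filter_not_mul_prod_filter]
  have hmain : ∀ par : ℕ, ∑ d ∈ S.prodPrimes.divisors, mixedWeight D w par d * S.nu d =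
      V₀ * (∏ p ∈ L, (1 - S.nu p) - (-1) ^ par * defect D 2 par L S.nu) := by
    intro par
    rw [sum_mixedWeight_mul S.prodPrimes_squarefree _ _ _ _ S.nu fun d hd =>
      (BoundingSieve.prod_primeFactors_nu (Nat.dvd_of_mem_divisors hd)).symm, truncSum_eq, hV₀, hL]
    rfl
  obtain ⟨hup, hlow⟩ := defect_linear_le hδ hδ1 hε hεδ (fun p hp => hx p (hLs hp)) hr hD hz
    fun p hp => ⟨(Nat.prime_of_mem_primeFactors (hLs hp)).two_le, hP p (hLs hp)⟩
  refine ⟨fun hs => ?_, fun hs => ?_⟩
  · have h1 : S.siftedSum ≤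
        S.totalMass * ∑ d ∈ S.prodPrimes.divisors, mixedWeight D w 1 d * S.nu d +
          ∑ d ∈ S.prodPrimes.divisors, mixedWeight D w 1 d * S.rem d := by
      rw [← sum_weights_eq, BoundingSieve.siftedSum]
      refine sum_le_sum fun n _ => ?_
      refine le_trans (le_of_eq ?_) (mul_le_mul_of_nonneg_left
        (le_sum_mixedWeight S.prodPrimes_squarefree D w n) (S.weights_nonneg n))
      rw [mul_ite, mul_one, mul_zero]
    have hrem := abs_le.1 (abs_sum_mixed_rem_le (w := w) (par := 1) S (by norm_num) hz hD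
      (by push_cast; linarith) hP)
    rw [hmain, pow_one] at h1
    have h2 := mul_le_mul_of_nonneg_left (mul_le_mul_of_nonneg_left (hup hs) hV00) hX
    rw [hV, sieveUpperFn]
    linarith
  · have h1 : S.totalMass * ∑ d ∈ S.prodPrimes.divisors, mixedWeight D w 0 d * S.nu d +
        ∑ d ∈ S.prodPrimes.divisors, mixedWeight D w 0 d * S.rem d ≤ S.siftedSum := by
      rw [← sum_weights_eq, BoundingSieve.siftedSum]
      refine sum_le_sum fun n _ => ?_
      refine (mul_le_mul_of_nonneg_left (sum_mixedWeight_le S.prodPrimes_squarefree D w n)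
        (S.weights_nonneg n)).trans (le_of_eq ?_)
      rw [mul_ite, mul_one, mul_zero]
    have hrem := abs_le.1 (abs_sum_mixed_rem_le (w := w) (par := 0) S (by norm_num) hz hD
      (by push_cast; linarith) hP)
    rw [hmain, pow_zero] at h1
    have h2 := mul_le_mul_of_nonneg_left (mul_le_mul_of_nonneg_left (hlow hs) hV00) hX
    rw [hV, sieveLowerFn]
    linarith

/-- `F s = A / s` on `[1, 3]`. -/
theorem sieveUpperFn_eq {s : ℝ} (h1 : 1 ≤ s) (h3 : s ≤ 3) : sieveUpperFn s = linearConst / s := by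
  rw [eq_div_iff (by linarith), mul_comm, sieveUpperFn, upperDefect_of_le_three h1 h3]

/-- `f s = A log (s - 1) / s` on `[2, 4]`. -/
theorem sieveLowerFn_eq {s : ℝ} (h2 : 2 ≤ s) (h4 : s ≤ 4) :
    sieveLowerFn s = linearConst * Real.log (s - 1) / s := by
  rw [eq_div_iff (by linarith), mul_comm, sieveLowerFn, lowerDefect_of_le_four h2 h4]

/-- The delay equations. -/
theorem hasDerivAt_mul_sieveFn {s : ℝ} :
    (3 < s → HasDerivAt (fun r => r * sieveUpperFn r) (sieveLowerFn (s - 1)) s) ∧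
    (2 < s → HasDerivAt (fun r => r * sieveLowerFn r) (sieveUpperFn (s - 1)) s) := by
  constructor <;> intro hs
  · have hc : Continuous fun t => lowerDefect (t - 1) := continuous_lowerDefect.comp (by fun_prop)
    have d := ((hasDerivAt_id s).add_const (3 * upperDefect 3)).sub
      (hc.integral_hasStrictDerivAt 3 s).hasDerivAt
    refine (d.congr_deriv ?_).congr_of_eventuallyEq ?_
    · rw [sieveLowerFn]
    · filter_upwards [eventually_gt_nhds hs] with r hr
      have h := upperDefect_equation le_rfl hr.le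
      simp only [sieveUpperFn, Pi.sub_apply, id]
      linarith
  · have hc : Continuous fun t => upperDefect (t - 1) := continuous_upperDefect.comp (by fun_prop)
    have d := ((hasDerivAt_id s).sub_const (2 * lowerDefect 2)).add
      (hc.integral_hasStrictDerivAt 2 s).hasDerivAt
    refine (d.congr_deriv ?_).congr_of_eventuallyEq ?_
    · rw [sieveUpperFn]
    · filter_upwards [eventually_gt_nhds hs] with r hr
      have h := lowerDefect_equation le_rfl hr.le
      simp only [sieveLowerFn, Pi.add_apply, id]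
      linarith

theorem sieveFn_bounds (s : ℝ) : 1 ≤ sieveUpperFn s ∧ sieveLowerFn s ≤ 1 ∧
    sieveUpperFn s - 1 ≤ 11 * Real.exp (3 - max s 1) ∧
    1 - sieveLowerFn s ≤ 33 * Real.exp (2 - max s 2) := by
  refine ⟨?_, ?_, ?_, ?_⟩ <;> simp only [sieveUpperFn, sieveLowerFn]
  · linarith [upperDefect_nonneg s]
  · linarith [lowerDefect_nonneg s]
  · have h : upperWeight s ≤ Real.exp (3 - max s 1) := min_le_right _ _
    linarith [upperDefect_le s]
  · have h : lowerWeight s ≤ 3 * Real.exp (2 - max s 2) := by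
      rw [lowerWeight]
      exact mul_le_mul_of_nonneg_right (by linarith [decay_lt_one]) (Real.exp_pos _).le
    linarith [lowerDefect_le s]

end FA.LinearSieve
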