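import Fermat.Agent.LinearSieve.Weight
import Mathlib.Analysis.Normed.Group.FunctionSeries
import Mathlib.MeasureTheory.Integral.DominatedConvergence

/-!
# The functions of the linear sieve

The iterates `defectIter n` are the limits of the sums over the sets stopped after `n + 1` steps;
their sums over the parities are the defects `F - 1` and `1 - f`.
-/

set_option autoImplicit false

noncomputable section

namespace FA.LinearSieve

open MeasureTheory intervalIntegral Filter
open scoped Topology

/-- The left end of the domain of the `n`-th iterate. -/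
def iterDom (n : ℕ) : ℝ := if Even n then 1 else 2

/-- The lower limit of its integral. -/
def iterStart (n : ℕ) : ℝ := if Even n then 3 else 2

/-- The iterates. -/
def defectIter : ℕ → ℝ → ℝ
  | 0, s => max (3 - max s 1) 0 / max s 1
  | n + 1, s => (∫ t in (max (max s (iterDom (n + 1))) (iterStart (n + 1)))..
      (max (max (max s (iterDom (n + 1))) (iterStart (n + 1))) (n + 4)), defectIter n (t - 1)) /
        max s (iterDom (n + 1))

theorem one_le_iterDom (n : ℕ) : 1 ≤ iterDom n := by
  rw [iterDom]
  split_ifs <;> norm_num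

theorem iterDom_le_start (n : ℕ) : iterDom n ≤ iterStart n := by
  rw [iterDom, iterStart]
  split_ifs <;> norm_num

theorem iterDom_pred_le (n : ℕ) : iterDom n + 1 ≤ iterStart (n + 1) := by
  rw [iterDom, iterStart]
  rcases Nat.even_or_odd n with h | h
  · rw [if_pos h, if_neg (Nat.even_add_one.not.2 (not_not.2 h))]
    norm_num
  · rw [if_neg (Nat.not_even_iff_odd.2 h), if_pos (Nat.even_add_one.2 (Nat.not_even_iff_odd.2 h))]
    norm_num

theorem max_dom_pos (n : ℕ) (s : ℝ) : 0 < max s (iterDom n) :=
  lt_max_of_lt_right (one_pos.trans_le (one_le_iterDom n))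

theorem continuous_defectIter : ∀ n, Continuous (defectIter n)
  | 0 => by
    show Continuous fun s => max (3 - max s 1) 0 / max s 1
    exact Continuous.div (by fun_prop) (by fun_prop) fun s => (lt_max_of_lt_right one_pos).ne'
  | n + 1 => by
    have hc : Continuous fun t => defectIter n (t - 1) :=
      (continuous_defectIter n).comp (by fun_prop)
    have hi : ∀ a b : ℝ, IntervalIntegrable (fun t => defectIter n (t - 1)) volume a b :=
      fun a b => hc.intervalIntegrable a b
    have hp := intervalIntegral.continuous_primitive hi 0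
    show Continuous fun s => (∫ t in (max (max s (iterDom (n + 1))) (iterStart (n + 1)))..
      (max (max (max s (iterDom (n + 1))) (iterStart (n + 1))) (n + 4)), defectIter n (t - 1)) /
        max s (iterDom (n + 1))
    refine Continuous.div ?_ (by fun_prop) fun s => (max_dom_pos _ s).ne'
    have e : ∀ a b : ℝ, ∫ t in a..b, defectIter n (t - 1) =
        (∫ t in (0 : ℝ)..b, defectIter n (t - 1)) - ∫ t in (0 : ℝ)..a, defectIter n (t - 1) :=
      fun a b => (integral_interval_sub_left (hi 0 b) (hi 0 a)).symm
    simp_rw [fun s => e (max (max s (iterDom (n + 1))) (iterStart (n + 1)))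
      (max (max (max s (iterDom (n + 1))) (iterStart (n + 1))) (n + 4))]
    exact (hp.comp (by fun_prop)).sub (hp.comp (by fun_prop))

theorem defectIter_nonneg : ∀ n s, 0 ≤ defectIter n s
  | 0, _ => div_nonneg (le_max_right _ _) (le_max_of_le_right zero_le_one)
  | n + 1, s => div_nonneg (integral_nonneg (le_max_left _ _) fun _ _ => defectIter_nonneg n _)
      (max_dom_pos _ s).le

theorem defectIter_eq_zero : ∀ (n : ℕ) (s : ℝ), (n : ℝ) + 3 ≤ s → defectIter n s = 0
  | 0, s, h => by
    have h1 := le_max_left s 1
    rw [defectIter, max_eq_right (by push_cast at h; linarith), zero_div]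
  | n + 1, s, h => by
    push_cast at h
    have h1 := le_max_left s (iterDom (n + 1))
    have h2 := le_max_left (max s (iterDom (n + 1))) (iterStart (n + 1))
    rw [defectIter, max_eq_left (show (n : ℝ) + 4 ≤ max (max s (iterDom (n + 1)))
      (iterStart (n + 1)) by linarith), integral_same, zero_div]

theorem intervalIntegrable_shift (n : ℕ) (a b : ℝ) :
    IntervalIntegrable (fun t => defectIter n (t - 1)) volume a b :=
  ((continuous_defectIter n).comp (by fun_prop)).intervalIntegrable a b

theorem integral_tail_eq_zero (n : ℕ) {a b : ℝ} (ha : (n : ℝ) + 4 ≤ a) (hb : (n : ℝ) + 4 ≤ b) :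
    ∫ t in a..b, defectIter n (t - 1) = 0 := by
  rw [integral_congr (g := fun _ => (0 : ℝ)) fun t ht => ?_, intervalIntegral.integral_zero]
  exact defectIter_eq_zero n _ (by linarith [ht.1, le_min ha hb])

/-- The equation of the iterates. -/
theorem mul_defectIter_succ (n : ℕ) {r b : ℝ} (hr : iterDom (n + 1) ≤ r)
    (hbn : (n : ℝ) + 4 ≤ b) :
    r * defectIter (n + 1) r = ∫ t in (max r (iterStart (n + 1)))..b, defectIter n (t - 1) := by
  rw [defectIter, max_eq_left hr, mul_div_cancel₀ _ (one_pos.trans_le
    ((one_le_iterDom _).trans hr)).ne', ← integral_add_adjacent_intervals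
    (b := max (max r (iterStart (n + 1))) ((n : ℝ) + 4)) (intervalIntegrable_shift n _ _)
    (intervalIntegrable_shift n _ b)]
  rw [show ∫ t in (max (max r (iterStart (n + 1))) ((n : ℝ) + 4))..b, defectIter n (t - 1) = 0 from
    integral_tail_eq_zero n (le_max_right _ _) hbn, add_zero]

theorem mul_defectIter_sub (n : ℕ) {r b : ℝ} (hr : iterStart (n + 1) ≤ r) (hb : r ≤ b) :
    r * defectIter (n + 1) r - b * defectIter (n + 1) b = ∫ t in r..b, defectIter n (t - 1) := by
  rw [mul_defectIter_succ n ((iterDom_le_start _).trans hr) (b := max b ((n : ℝ) + 4))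
      (le_max_right _ _),
    mul_defectIter_succ n ((iterDom_le_start _).trans (hr.trans hb)) (b := max b ((n : ℝ) + 4))
      (le_max_right _ _),
    max_eq_left hr, max_eq_left (hr.trans hb),
    ← integral_add_adjacent_intervals (intervalIntegrable_shift n r b)
      (intervalIntegrable_shift n b (max b ((n : ℝ) + 4))), add_sub_cancel_right]

theorem defectIter_max (n : ℕ) (s : ℝ) : defectIter n (max s (iterDom n)) = defectIter n s := by
  cases n with
  | zero => simp [defectIter, iterDom]
  | succ n => simp [defectIter]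

theorem antitone_defectIter (n : ℕ) : Antitone (defectIter n) := by
  intro a b hab
  cases n with
  | zero =>
    rw [defectIter, defectIter]
    exact div_le_div₀ (le_max_right _ _)
      (max_le_max (by linarith [max_le_max hab (le_refl (1 : ℝ))])
      le_rfl) (lt_max_of_lt_right one_pos) (max_le_max hab le_rfl)
  | succ n =>
    rw [← defectIter_max (n + 1) a, ← defectIter_max (n + 1) b]
    obtain ⟨x, hx⟩ : ∃ x, x = max a (iterDom (n + 1)) := ⟨_, rfl⟩
    obtain ⟨y, hy⟩ : ∃ y, y = max b (iterDom (n + 1)) := ⟨_, rfl⟩
    rw [← hx, ← hy]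
    have hxy : x ≤ y := hx ▸ hy ▸ max_le_max hab le_rfl
    have hxd : iterDom (n + 1) ≤ x := hx ▸ le_max_right _ _
    have hx0 : 0 < x := one_pos.trans_le ((one_le_iterDom _).trans hxd)
    obtain ⟨c, hc⟩ : ∃ c, c = max (max y (iterStart (n + 1))) ((n : ℝ) + 4) := ⟨_, rfl⟩
    refine le_of_mul_le_mul_left ?_ hx0
    refine (mul_le_mul_of_nonneg_right hxy (defectIter_nonneg _ _)).trans ?_
    rw [mul_defectIter_succ n (hxd.trans hxy) (b := c) (hc ▸ le_max_right _ _),
      mul_defectIter_succ n hxd (b := c)
        (hc ▸ le_max_right _ _)]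
    exact integral_mono_interval (max_le_max hxy le_rfl) (hc ▸ le_max_left _ _) le_rfl
      (Eventually.of_forall fun t => defectIter_nonneg n _) (intervalIntegrable_shift n _ _)

theorem upperWeight_max (s : ℝ) : upperWeight (max s 1) = upperWeight s := by
  simp [upperWeight]

theorem lowerWeight_max (s : ℝ) : lowerWeight (max s 2) = lowerWeight s := by
  simp [lowerWeight]

theorem defectIter_le : ∀ n s,
    defectIter n s ≤ decay ^ n * if Even n then upperWeight s else lowerWeight s
  | 0, s => by
    rw [defectIter, if_pos ⟨0, rfl⟩, pow_zero, one_mul]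
    have h1 : 1 ≤ max s 1 := le_max_right s 1
    rw [← upperWeight_max s]
    rcases le_or_gt (max s 1) 3 with h3 | h3
    · rw [upperWeight_eq_inv h1 h3]
      exact div_le_div_of_nonneg_right (max_le (by linarith) (by norm_num)) (by linarith)
    · rw [max_eq_right (by linarith), zero_div]
      exact (upperWeight_pos _).le
  | n + 1, s => by
    rw [← defectIter_max (n + 1) s]
    obtain ⟨r, hr⟩ : ∃ r, r = max s (iterDom (n + 1)) := ⟨_, rfl⟩
    rw [← hr]
    have hrd : iterDom (n + 1) ≤ r := hr ▸ le_max_right _ _
    have hr0 : 0 < r := one_pos.trans_le ((one_le_iterDom _).trans hrd)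
    obtain ⟨c, hc⟩ : ∃ c, c = max (max r (iterStart (n + 1))) ((n : ℝ) + 4) := ⟨_, rfl⟩
    refine le_of_mul_le_mul_left ?_ hr0
    rw [mul_defectIter_succ n hrd (b := c) (hc ▸ le_max_right _ _)]
    have hmono : ∀ w : ℝ → ℝ, Continuous w →
        (∀ t, defectIter n t ≤ decay ^ n * w t) →
        ∫ t in (max r (iterStart (n + 1)))..c, defectIter n (t - 1) ≤
          decay ^ n * ∫ t in (max r (iterStart (n + 1)))..c, w (t - 1) := fun w hw h => by
      rw [← intervalIntegral.integral_const_mul]
      exact integral_mono_on (hc ▸ le_max_left _ _) (intervalIntegrable_shift n _ _)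
        (((hw.comp (by fun_prop : Continuous fun t : ℝ => t - 1)).const_mul _).intervalIntegrable
          _ _) fun t _ => h (t - 1)
    rcases Nat.even_or_odd n with hn | hn
    · have hns : ¬ Even (n + 1) := Nat.even_add_one.not.2 (not_not.2 hn)
      rw [if_neg hns]
      have h2 : 2 ≤ r := by rwa [iterDom, if_neg hns] at hrd
      refine (hmono _ continuous_upperWeight fun t => (defectIter_le n t).trans_eq
        (by rw [if_pos hn])).trans ?_
      have he : max r (iterStart (n + 1)) = r := by
        rw [iterStart, if_neg hns, max_eq_left h2]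
      rw [he]
      refine (mul_le_mul_of_nonneg_left (integral_upperWeight_le h2
        (hc ▸ (le_max_left r _).trans (le_max_left _ _))) (pow_nonneg decay_pos.le n)).trans ?_
      rw [pow_succ, show lowerWeight s = lowerWeight r by
        rw [hr, iterDom, if_neg hns, lowerWeight_max]]
      exact le_of_eq (by ring)
    · have hns : Even (n + 1) := Nat.even_add_one.2 (Nat.not_even_iff_odd.2 hn)
      rw [if_pos hns]
      have h1 : 1 ≤ r := (one_le_iterDom _).trans hrd
      refine (hmono _ continuous_lowerWeight fun t => (defectIter_le n t).trans_eq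
        (by rw [if_neg (Nat.not_even_iff_odd.2 hn)])).trans ?_
      have he : max r (iterStart (n + 1)) = max r 3 := by rw [iterStart, if_pos hns]
      rw [he] at hc ⊢
      refine (mul_le_mul_of_nonneg_left (integral_lowerWeight_le h1 (hc ▸ le_max_left _ _))
        (pow_nonneg decay_pos.le n)).trans ?_
      rw [pow_succ, show upperWeight s = upperWeight r by
        rw [hr, iterDom, if_pos hns, upperWeight_max]]
      exact le_of_eq (by ring)

/-- `F - 1`. -/
def upperDefect (s : ℝ) : ℝ := ∑' k : ℕ, defectIter (2 * k) s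

/-- `1 - f`. -/
def lowerDefect (s : ℝ) : ℝ := ∑' k : ℕ, defectIter (2 * k + 1) s

theorem even_bound (k : ℕ) (s : ℝ) :
    defectIter (2 * k) s ≤ (decay ^ 2) ^ k * upperWeight s := by
  have h := defectIter_le (2 * k) s
  rwa [if_pos (even_two_mul k), pow_mul] at h

theorem odd_bound (k : ℕ) (s : ℝ) :
    defectIter (2 * k + 1) s ≤ (decay ^ 2) ^ k * lowerWeight s := by
  have h := defectIter_le (2 * k + 1) s
  rw [if_neg (Nat.not_even_two_mul_add_one k)] at h
  refine h.trans (mul_le_mul_of_nonneg_right ?_ (lowerWeight_pos s).le)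
  rw [pow_succ, pow_mul]
  exact mul_le_of_le_one_right (pow_nonneg (sq_nonneg _) k) decay_lt_one.le

theorem summable_sq : Summable fun k : ℕ => (decay ^ 2) ^ k :=
  summable_geometric_of_lt_one (sq_nonneg _) (by norm_num [decay])

theorem tsum_sq_le : ∑' k : ℕ, (decay ^ 2) ^ k ≤ 11 := by
  rw [tsum_geometric_of_lt_one (sq_nonneg _) (by norm_num [decay])]
  norm_num [decay]

theorem summable_even (s : ℝ) : Summable fun k : ℕ => defectIter (2 * k) s :=
  Summable.of_nonneg_of_le (fun _ => defectIter_nonneg _ _) (fun k => even_bound k s)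
    (summable_sq.mul_right _)

theorem summable_odd (s : ℝ) : Summable fun k : ℕ => defectIter (2 * k + 1) s :=
  Summable.of_nonneg_of_le (fun _ => defectIter_nonneg _ _) (fun k => odd_bound k s)
    (summable_sq.mul_right _)

theorem upperDefect_nonneg (s : ℝ) : 0 ≤ upperDefect s := tsum_nonneg fun _ => defectIter_nonneg _ _

theorem lowerDefect_nonneg (s : ℝ) : 0 ≤ lowerDefect s := tsum_nonneg fun _ => defectIter_nonneg _ _

theorem upperDefect_le (s : ℝ) : upperDefect s ≤ 11 * upperWeight s :=
  ((summable_even s).tsum_le_tsum (fun k => even_bound k s) (summable_sq.mul_right _)).trans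
    (by rw [tsum_mul_right]; exact mul_le_mul_of_nonneg_right tsum_sq_le (upperWeight_pos s).le)

theorem lowerDefect_le (s : ℝ) : lowerDefect s ≤ 11 * lowerWeight s :=
  ((summable_odd s).tsum_le_tsum (fun k => odd_bound k s) (summable_sq.mul_right _)).trans
    (by rw [tsum_mul_right]; exact mul_le_mul_of_nonneg_right tsum_sq_le (lowerWeight_pos s).le)

theorem antitone_upperDefect : Antitone upperDefect := fun _ _ h =>
  (summable_even _).tsum_le_tsum (fun _ => antitone_defectIter _ h) (summable_even _)

theorem antitone_lowerDefect : Antitone lowerDefect := fun _ _ h =>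
  (summable_odd _).tsum_le_tsum (fun _ => antitone_defectIter _ h) (summable_odd _)

theorem norm_even_le (k : ℕ) (s : ℝ) : ‖defectIter (2 * k) s‖ ≤ (decay ^ 2) ^ k * 3 := by
  rw [Real.norm_of_nonneg (defectIter_nonneg _ _)]
  exact (even_bound k s).trans
    (mul_le_mul_of_nonneg_left (upperWeight_le s) (pow_nonneg (sq_nonneg _) k))

theorem norm_odd_le (k : ℕ) (s : ℝ) : ‖defectIter (2 * k + 1) s‖ ≤ (decay ^ 2) ^ k * 3 := by
  rw [Real.norm_of_nonneg (defectIter_nonneg _ _)]
  exact (odd_bound k s).trans
    (mul_le_mul_of_nonneg_left (lowerWeight_le s) (pow_nonneg (sq_nonneg _) k))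

theorem continuous_upperDefect : Continuous upperDefect :=
  continuous_tsum (fun _ => continuous_defectIter _) (summable_sq.mul_right 3) norm_even_le

theorem continuous_lowerDefect : Continuous lowerDefect :=
  continuous_tsum (fun _ => continuous_defectIter _) (summable_sq.mul_right 3) norm_odd_le

theorem hasSum_integral_shift {g : ℕ → ℝ → ℝ} (hg : ∀ k, Continuous (g k))
    (hb : ∀ k t, ‖g k t‖ ≤ (decay ^ 2) ^ k * 3) (a b : ℝ) :
    HasSum (fun k => ∫ t in a..b, g k (t - 1)) (∫ t in a..b, ∑' k, g k (t - 1)) :=
  intervalIntegral.hasSum_integral_of_dominated_convergence (fun k _ => (decay ^ 2) ^ k * 3)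
    (fun k => ((hg k).comp (by fun_prop)).aestronglyMeasurable)
    (fun k => Eventually.of_forall fun t _ => hb k _)
    (Eventually.of_forall fun _ _ => summable_sq.mul_right 3) intervalIntegrable_const
    (Eventually.of_forall fun t _ =>
      (Summable.of_norm_bounded (summable_sq.mul_right 3) fun k => hb k _).hasSum)

/-- The equation of the lower defect. -/
theorem lowerDefect_equation {r b : ℝ} (hr : 2 ≤ r) (hb : r ≤ b) :
    r * lowerDefect r - b * lowerDefect b = ∫ t in r..b, upperDefect (t - 1) := by
  have h := hasSum_integral_shift (g := fun k => defectIter (2 * k))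
    (fun _ => continuous_defectIter _) norm_even_le r b
  have h' := ((summable_odd r).hasSum.mul_left r).sub ((summable_odd b).hasSum.mul_left b)
  have e : (fun k : ℕ => r * defectIter (2 * k + 1) r - b * defectIter (2 * k + 1) b) =
      fun k : ℕ => ∫ t in r..b, defectIter (2 * k) (t - 1) := funext fun k => by
    refine mul_defectIter_sub (2 * k) ?_ hb
    rwa [iterStart, if_neg (Nat.not_even_two_mul_add_one k)]
  rw [e] at h'
  exact h'.unique h

/-- The equation of the upper defect. -/
theorem upperDefect_equation {r b : ℝ} (hr : 3 ≤ r) (hb : r ≤ b) :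
    r * upperDefect r - b * upperDefect b = ∫ t in r..b, lowerDefect (t - 1) := by
  have h := hasSum_integral_shift (g := fun k => defectIter (2 * k + 1))
    (fun _ => continuous_defectIter _) norm_odd_le r b
  have hz : ∀ s : ℝ, 3 ≤ s → upperDefect s = ∑' k : ℕ, defectIter (2 * k + 1 + 1) s :=
    fun s hs => by
    rw [upperDefect, (summable_even s).tsum_eq_zero_add, defectIter_eq_zero 0 s
      (by simpa using hs), zero_add]
    rfl
  rw [hz r hr, hz b (hr.trans hb)]
  have hs : ∀ s : ℝ, Summable fun k : ℕ => defectIter (2 * k + 1 + 1) s := fun s =>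
    ((summable_nat_add_iff 1).2 (summable_even s) :)
  have h' := ((hs r).hasSum.mul_left r).sub ((hs b).hasSum.mul_left b)
  have e : (fun k : ℕ => r * defectIter (2 * k + 1 + 1) r - b * defectIter (2 * k + 1 + 1) b) =
      fun k : ℕ => ∫ t in r..b, defectIter (2 * k + 1) (t - 1) := funext fun k => by
    refine mul_defectIter_sub (2 * k + 1) ?_ hb
    rwa [iterStart, if_pos (by simp [parity_simps])]
  rw [e] at h'
  exact h'.unique h

theorem integral_upperDefect_le {r b : ℝ} (hr : 2 ≤ r) (hb : r ≤ b) :
    ∫ t in r..b, upperDefect (t - 1) ≤ r * lowerDefect r := by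
  rw [← lowerDefect_equation hr hb]
  exact sub_le_self _ (mul_nonneg (by linarith) (lowerDefect_nonneg b))

theorem integral_lowerDefect_le {r b : ℝ} (hr : 3 ≤ r) (hb : r ≤ b) :
    ∫ t in r..b, lowerDefect (t - 1) ≤ r * upperDefect r := by
  rw [← upperDefect_equation hr hb]
  exact sub_le_self _ (mul_nonneg (by linarith) (upperDefect_nonneg b))

/-- The constant `A` of the linear sieve (classically `2 e ^ γ`). -/
def linearConst : ℝ := 3 * (1 + upperDefect 3)

theorem three_le_linearConst : 3 ≤ linearConst := by
  rw [linearConst]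
  linarith [upperDefect_nonneg 3]

/-- `F s = A / s` on `[1, 3]`. -/
theorem upperDefect_of_le_three {s : ℝ} (h1 : 1 ≤ s) (h3 : s ≤ 3) :
    s * (1 + upperDefect s) = linearConst := by
  have he : ∀ k : ℕ, s * defectIter (2 * k + 1 + 1) s = 3 * defectIter (2 * k + 1 + 1) 3 :=
      fun k => by
    have hd : iterDom (2 * k + 1 + 1) = 1 := by rw [iterDom, if_pos (by simp [parity_simps])]
    have hst : iterStart (2 * k + 1 + 1) = 3 := by rw [iterStart, if_pos (by simp [parity_simps])]
    obtain ⟨b, hb⟩ : ∃ b, b = max (3 : ℝ) (((2 * k + 1 : ℕ) : ℝ) + 4) := ⟨_, rfl⟩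
    rw [mul_defectIter_succ (2 * k + 1) (b := b) (hd ▸ h1)
        (hb ▸ le_max_right _ _),
      mul_defectIter_succ (2 * k + 1) (b := b) (by rw [hd]; norm_num)
        (hb ▸ le_max_right _ _),
      hst, max_eq_right h3, max_self]
  have h0 : defectIter 0 3 = 0 := defectIter_eq_zero 0 3 (by norm_num)
  have h0s : s * defectIter 0 s = 3 - s := by
    rw [defectIter, max_eq_left h1, max_eq_left (by linarith), mul_div_cancel₀ _ (by linarith)]
  rw [linearConst, upperDefect, upperDefect, (summable_even s).tsum_eq_zero_add,
    (summable_even 3).tsum_eq_zero_add, mul_add, mul_add, mul_add, mul_add, ← tsum_mul_left,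
    ← tsum_mul_left, mul_zero, h0, mul_zero, zero_add, h0s]
  have e : (fun k : ℕ => s * defectIter (2 * (k + 1)) s) =
      fun k : ℕ => 3 * defectIter (2 * (k + 1)) 3 := funext he
  rw [e]
  ring

theorem integral_upperDefect_shift {s : ℝ} (h2 : 2 ≤ s) (h4 : s ≤ 4) :
    ∫ t in s..4, upperDefect (t - 1) =
      linearConst * (Real.log 3 - Real.log (s - 1)) - (4 - s) := by
  rw [integral_congr (g := fun t => linearConst * (t - 1)⁻¹ - 1) fun t ht => ?_]
  · have hne : ∀ t ∈ Set.uIcc s 4, t - 1 ≠ 0 := fun t ht => by
      rw [Set.uIcc_of_le h4] at ht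
      linarith [ht.1]
    have hi : IntervalIntegrable (fun t => linearConst * (t - 1)⁻¹) volume s 4 :=
      ContinuousOn.intervalIntegrable (continuousOn_const.mul
        (((continuous_id.sub continuous_const).continuousOn).inv₀ hne))
    rw [intervalIntegral.integral_sub hi intervalIntegrable_const,
      intervalIntegral.integral_const_mul,
      integral_comp_sub_right (fun t => t⁻¹) 1, integral_inv_of_pos (by linarith) (by norm_num),
      Real.log_div (by norm_num) (by linarith), intervalIntegral.integral_const, smul_eq_mul,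
      mul_one]
    norm_num
  · rw [Set.uIcc_of_le h4] at ht
    have h := upperDefect_of_le_three (s := t - 1) (by linarith [ht.1]) (by linarith [ht.2])
    have h0 : t - 1 ≠ 0 := by linarith [ht.1]
    dsimp only
    field_simp
    linarith

/-- The combination which the adjoint equation conserves. -/
def gapInvariant (r : ℝ) : ℝ :=
  (r - 1) * (3 * (upperDefect 3 + lowerDefect 3) -
      ∫ t in (3 : ℝ)..r, (upperDefect (t - 1) + lowerDefect (t - 1))) -
    ((∫ t in (0 : ℝ)..r, t * (upperDefect t + lowerDefect t)) -
      ∫ t in (0 : ℝ)..(r - 1), t * (upperDefect t + lowerDefect t))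

theorem gap_eq {r : ℝ} (hr : 3 ≤ r) :
    3 * (upperDefect 3 + lowerDefect 3) -
      ∫ t in (3 : ℝ)..r, (upperDefect (t - 1) + lowerDefect (t - 1)) =
        r * (upperDefect r + lowerDefect r) := by
  have h1 := upperDefect_equation le_rfl hr
  have h2 := lowerDefect_equation (by norm_num : (2 : ℝ) ≤ 3) hr
  have hu : Continuous fun t => upperDefect (t - 1) := continuous_upperDefect.comp (by fun_prop)
  have hl : Continuous fun t => lowerDefect (t - 1) := continuous_lowerDefect.comp (by fun_prop)
  rw [intervalIntegral.integral_add (hu.intervalIntegrable _ _) (hl.intervalIntegrable _ _)]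
  linarith

theorem hasDerivAt_gapInvariant {r : ℝ} (hr : 3 ≤ r) : HasDerivAt gapInvariant 0 r := by
  have hQ : Continuous fun t => upperDefect t + lowerDefect t :=
    continuous_upperDefect.add continuous_lowerDefect
  have hQ1 : Continuous fun t => upperDefect (t - 1) + lowerDefect (t - 1) :=
    hQ.comp (by fun_prop : Continuous fun t : ℝ => t - 1)
  have hK : Continuous fun t => t * (upperDefect t + lowerDefect t) := continuous_id.mul hQ
  have d1 := (hQ1.integral_hasStrictDerivAt 3 r).hasDerivAt.const_sub
    (3 * (upperDefect 3 + lowerDefect 3))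
  have d2 := (hK.integral_hasStrictDerivAt 0 r).hasDerivAt
  have d3 := (hK.integral_hasStrictDerivAt 0 (r - 1)).hasDerivAt.comp r
    ((hasDerivAt_id r).sub_const 1)
  have d := (((hasDerivAt_id r).sub_const 1).mul d1).sub (d2.sub d3)
  refine (d.congr_deriv ?_).congr_of_eventuallyEq (Eventually.of_forall fun x => rfl)
  rw [gap_eq hr]
  simp only [id]
  ring

theorem tendsto_gapInvariant : Tendsto gapInvariant atTop (𝓝 0) := by
  have hQ : Continuous fun t => upperDefect t + lowerDefect t :=
    continuous_upperDefect.add continuous_lowerDefect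
  have hK : Continuous fun t => t * (upperDefect t + lowerDefect t) := continuous_id.mul hQ
  have hbd : ∀ t : ℝ, 3 ≤ t → upperDefect t + lowerDefect t ≤ 50 * Real.exp 3 * Real.exp (-t) := by
    intro t ht
    have h1 := upperDefect_le t
    have h2 := lowerDefect_le t
    rw [upperWeight_eq_exp ht, sub_eq_add_neg, Real.exp_add] at h1
    rw [lowerWeight, max_eq_left (by linarith), sub_eq_add_neg, Real.exp_add] at h2
    have h3 : Real.exp 2 ≤ Real.exp 3 := Real.exp_le_exp.2 (by norm_num)
    have h4 := mul_le_mul_of_nonneg_right h3 (Real.exp_pos (-t)).le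
    have := decay_lt_one
    nlinarith [Real.exp_pos 3, Real.exp_pos (-t), decay_pos,
      mul_pos (Real.exp_pos 2) (Real.exp_pos (-t))]
  have h := (Real.tendsto_pow_mul_exp_neg_atTop_nhds_zero 2).const_mul
    (2 * (50 * Real.exp 3) * Real.exp 1)
  rw [mul_zero] at h
  refine squeeze_zero_norm' ?_ h
  filter_upwards [eventually_ge_atTop (4 : ℝ)] with r hr
  rw [Real.norm_eq_abs, gapInvariant, gap_eq (by linarith),
    integral_interval_sub_left (hK.intervalIntegrable _ _) (hK.intervalIntegrable _ _)]
  have hP : 0 ≤ (r - 1) * (r * (upperDefect r + lowerDefect r)) :=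
    mul_nonneg (by linarith) (mul_nonneg (by linarith)
      (add_nonneg (upperDefect_nonneg r) (lowerDefect_nonneg r)))
  have hI : ∫ t in (r - 1)..r, t * (upperDefect t + lowerDefect t) ≤
      r * (50 * Real.exp 3 * (Real.exp 1 * Real.exp (-r))) := by
    refine (integral_mono_on (g := fun _ => r * (50 * Real.exp 3 * (Real.exp 1 * Real.exp (-r))))
      (by linarith) (hK.intervalIntegrable _ _) intervalIntegrable_const fun t ht => ?_).trans ?_
    · refine mul_le_mul ht.2 ((hbd t (by linarith [ht.1])).trans (mul_le_mul_of_nonneg_left ?_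
        (by positivity))) (add_nonneg (upperDefect_nonneg t) (lowerDefect_nonneg t)) (by linarith)
      rw [← Real.exp_add, Real.exp_le_exp]
      linarith [ht.1]
    · rw [intervalIntegral.integral_const, sub_sub_cancel, one_smul]
  have hI0 : 0 ≤ ∫ t in (r - 1)..r, t * (upperDefect t + lowerDefect t) :=
    integral_nonneg (by linarith) fun t ht => mul_nonneg (by linarith [ht.1])
      (add_nonneg (upperDefect_nonneg t) (lowerDefect_nonneg t))
  have hP' : (r - 1) * (r * (upperDefect r + lowerDefect r)) ≤
      r ^ 2 * (50 * Real.exp 3 * Real.exp (-r)) := by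
    rw [sq, mul_assoc]
    exact mul_le_mul (by linarith) (mul_le_mul_of_nonneg_left (hbd r (by linarith)) (by linarith))
      (mul_nonneg (by linarith) (add_nonneg (upperDefect_nonneg r) (lowerDefect_nonneg r)))
      (by linarith)
  obtain ⟨M, hM⟩ : ∃ M, M = 50 * Real.exp 3 * Real.exp (-r) * Real.exp 1 := ⟨_, rfl⟩
  have hM0 : 0 ≤ M := by rw [hM]; positivity
  have h1 : 50 * Real.exp 3 * Real.exp (-r) ≤ M :=
    hM ▸ le_mul_of_one_le_right (by positivity) (Real.one_le_exp zero_le_one)
  have h2 := mul_le_mul_of_nonneg_right (show r ≤ r ^ 2 by nlinarith) hM0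
  have h3 := mul_le_mul_of_nonneg_left h1 (sq_nonneg r)
  rw [abs_le]
  constructor <;> nlinarith [sq_nonneg r, hM]

/-- `f 2 = 0`: by the adjoint equation. -/
theorem lowerDefect_const : 4 * (1 - lowerDefect 4) = linearConst * Real.log 3 := by
  have hconst : ∀ r : ℝ, 3 ≤ r → gapInvariant r = gapInvariant 3 := fun r hr =>
    constant_of_has_deriv_right_zero (a := 3) (b := r)
      (fun x hx => (hasDerivAt_gapInvariant hx.1).continuousAt.continuousWithinAt)
      (fun x hx => (hasDerivAt_gapInvariant hx.1).hasDerivWithinAt) r ⟨hr, le_rfl⟩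
  have hzero : gapInvariant 3 = 0 := tendsto_nhds_unique (tendsto_const_nhds.congr'
    ((eventually_ge_atTop 3).mono fun r hr => (hconst r hr).symm)) tendsto_gapInvariant
  have hlow : ∀ s : ℝ, 2 ≤ s → s ≤ 4 → s * (1 - lowerDefect s) =
      linearConst * Real.log (s - 1) + (4 * (1 - lowerDefect 4) - linearConst * Real.log 3) := by
    intro s h2 h4
    have h := lowerDefect_equation h2 h4
    rw [integral_upperDefect_shift h2 h4] at h
    linarith
  obtain ⟨c, hc⟩ : ∃ c, c = 4 * (1 - lowerDefect 4) - linearConst * Real.log 3 := ⟨_, rfl⟩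
  rw [← hc] at hlow
  have hQ : Continuous fun t => upperDefect t + lowerDefect t :=
    continuous_upperDefect.add continuous_lowerDefect
  have hK : Continuous fun t => t * (upperDefect t + lowerDefect t) := continuous_id.mul hQ
  have hint : ∫ t in (2 : ℝ)..3, t * (upperDefect t + lowerDefect t) =
      linearConst - c - linearConst * (2 * Real.log 2 - 1) := by
    rw [integral_congr (g := fun t => (linearConst - c) - linearConst * Real.log (t - 1))
      fun t ht => ?_]
    · have hl : ContinuousOn (fun t : ℝ => Real.log (t - 1)) (Set.uIcc 2 3) :=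
        ContinuousOn.log (by fun_prop) fun t ht => by
          rw [Set.uIcc_of_le (by norm_num : (2 : ℝ) ≤ 3)] at ht
          linarith [ht.1]
      have hi : IntervalIntegrable (fun t => linearConst * Real.log (t - 1)) volume 2 3 :=
        ContinuousOn.intervalIntegrable (continuousOn_const.mul hl)
      rw [intervalIntegral.integral_sub intervalIntegrable_const hi,
        intervalIntegral.integral_const_mul, integral_comp_sub_right (fun t => Real.log t) 1,
        integral_log, intervalIntegral.integral_const, smul_eq_mul]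
      norm_num
      left
      ring
    · rw [Set.uIcc_of_le (by norm_num : (2 : ℝ) ≤ 3)] at ht
      have h1 := upperDefect_of_le_three (by linarith [ht.1]) ht.2
      have h2 := hlow t ht.1 (by linarith [ht.2])
      dsimp only
      linarith
  have h3 := hlow 3 (by norm_num) (by norm_num)
  have h4 := upperDefect_of_le_three (by norm_num : (1 : ℝ) ≤ 3) le_rfl
  rw [show (3 : ℝ) - 1 = 2 by norm_num] at h3
  rw [gapInvariant, integral_same, integral_interval_sub_left (hK.intervalIntegrable _ _)
    (hK.intervalIntegrable _ _), show (3 : ℝ) - 1 = 2 by norm_num, hint] at hzero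
  linarith

/-- `f s = A log (s - 1) / s` on `[2, 4]`. -/
theorem lowerDefect_of_le_four {s : ℝ} (h2 : 2 ≤ s) (h4 : s ≤ 4) :
    s * (1 - lowerDefect s) = linearConst * Real.log (s - 1) := by
  have h := lowerDefect_equation h2 h4
  rw [integral_upperDefect_shift h2 h4] at h
  have := lowerDefect_const
  linarith

theorem lowerDefect_two : lowerDefect 2 = 1 := by
  have h := lowerDefect_of_le_four le_rfl (by norm_num : (2 : ℝ) ≤ 4)
  rw [show (2 : ℝ) - 1 = 1 by norm_num, Real.log_one, mul_zero] at h
  linarith

end FA.LinearSieve
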