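import Mathlib.Analysis.SpecialFunctions.Integrals.Basic
import Mathlib.Analysis.Convex.SpecificFunctions.Basic
import Mathlib.Analysis.Complex.ExponentialBounds
import Mathlib.Tactic

/-!
# The weights measuring the convergence of the linear sieve

`u (s) = min (3 / s) (e ^ (3 - s))` and `v (s) = 3 (19/20) e ^ (2 - s)`: two steps of the iteration
of the linear sieve multiply them by at most `(19/20) ^ 2`.
-/

set_option autoImplicit false

noncomputable section

namespace FA.LinearSieve

open MeasureTheory intervalIntegral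

/-- The contraction factor. -/
def decay : ℝ := 19 / 20

/-- The weight of the upper defects. -/
def upperWeight (s : ℝ) : ℝ := min (3 / max s 1) (Real.exp (3 - max s 1))

/-- The weight of the lower defects. -/
def lowerWeight (s : ℝ) : ℝ := 3 * decay * Real.exp (2 - max s 2)

theorem decay_pos : 0 < decay := by norm_num [decay]

theorem decay_lt_one : decay < 1 := by norm_num [decay]

theorem upperWeight_pos (s : ℝ) : 0 < upperWeight s :=
  lt_min (div_pos three_pos (lt_max_of_lt_right one_pos)) (Real.exp_pos _)

theorem lowerWeight_pos (s : ℝ) : 0 < lowerWeight s := by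
  rw [lowerWeight]
  positivity [decay_pos]

theorem upperWeight_le (s : ℝ) : upperWeight s ≤ 3 :=
  (min_le_left _ _).trans (div_le_self three_pos.le (le_max_right s 1))

theorem lowerWeight_le (s : ℝ) : lowerWeight s ≤ 3 := by
  rw [lowerWeight]
  have h : Real.exp (2 - max s 2) ≤ 1 := Real.exp_le_one_iff.2 (by linarith [le_max_right s 2])
  nlinarith [decay_pos, decay_lt_one, Real.exp_pos (2 - max s 2)]

theorem continuous_upperWeight : Continuous upperWeight := by
  unfold upperWeight
  refine Continuous.min (continuous_const.div (by fun_prop) fun s => ?_) (by fun_prop)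
  exact (lt_max_of_lt_right one_pos).ne'

theorem continuous_lowerWeight : Continuous lowerWeight := by
  unfold lowerWeight
  fun_prop

theorem upperWeight_eq_inv {s : ℝ} (h1 : 1 ≤ s) (h3 : s ≤ 3) : upperWeight s = 3 / s := by
  rw [upperWeight, max_eq_left h1, min_eq_left]
  rw [div_le_iff₀ (by linarith)]
  have h := Real.quadratic_le_exp_of_nonneg (x := 3 - s) (by linarith)
  nlinarith [mul_nonneg (sub_nonneg.2 h3) (sub_nonneg.2 h1), mul_nonneg (sub_nonneg.2 h3)
    (mul_nonneg (sub_nonneg.2 h3) (sub_nonneg.2 h1))]

theorem upperWeight_eq_exp {s : ℝ} (h3 : 3 ≤ s) : upperWeight s = Real.exp (3 - s) := by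
  rw [upperWeight, max_eq_left (by linarith), min_eq_right]
  rw [le_div_iff₀ (by linarith), ← neg_sub, Real.exp_neg, inv_mul_le_iff₀ (Real.exp_pos _)]
  nlinarith [Real.add_one_le_exp (s - 3)]

/-- `∫ exp (a - t) ≤ exp (a - r)`. -/
theorem integral_exp_sub_le (a r b : ℝ) :
    ∫ t in r..b, Real.exp (a - t) ≤ Real.exp (a - r) := by
  rw [integral_comp_sub_left (fun t => Real.exp t) a, integral_exp]
  linarith [Real.exp_pos (a - b)]

/-- The step from the upper to the lower weight. -/
theorem integral_upperWeight_le {r b : ℝ} (hr : 2 ≤ r) (hb : r ≤ b) :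
    ∫ t in r..b, upperWeight (t - 1) ≤ decay * r * lowerWeight r := by
  have hc : Continuous fun t => upperWeight (t - 1) :=
    continuous_upperWeight.comp (by fun_prop)
  have he : Continuous fun t : ℝ => Real.exp (4 - t) := by fun_prop
  have hle : ∀ t : ℝ, 2 ≤ t → upperWeight (t - 1) ≤ Real.exp (4 - t) := fun t ht => by
    rw [upperWeight, max_eq_left (by linarith), show (4 : ℝ) - t = 3 - (t - 1) by ring]
    exact min_le_right _ _
  rw [lowerWeight, max_eq_left hr]
  rcases le_or_gt 4 r with h4 | h4
  · refine ((integral_mono_on hb (hc.intervalIntegrable _ _) (he.intervalIntegrable _ _)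
      fun t ht => hle t (hr.trans ht.1)).trans (integral_exp_sub_le 4 r b)).trans ?_
    have e : Real.exp (4 - r) = Real.exp 1 * Real.exp 1 * Real.exp (2 - r) := by
      rw [← Real.exp_add, ← Real.exp_add]
      ring_nf
    rw [e]
    have h1 : Real.exp 1 * Real.exp 1 ≤ decay * r * (3 * decay) := by
      have h2 := mul_le_mul Real.exp_one_lt_d9.le Real.exp_one_lt_d9.le (Real.exp_pos 1).le
        (by norm_num)
      rw [decay]
      nlinarith
    calc _ ≤ decay * r * (3 * decay) * Real.exp (2 - r) :=
        mul_le_mul_of_nonneg_right h1 (Real.exp_pos _).le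
      _ = _ := by ring
  · have hext : ∫ t in r..b, upperWeight (t - 1) ≤ ∫ t in r..max b 4, upperWeight (t - 1) :=
      integral_mono_interval le_rfl hb (le_max_left b 4)
        (Filter.Eventually.of_forall fun t => (upperWeight_pos _).le) (hc.intervalIntegrable _ _)
    refine hext.trans ?_
    rw [← integral_add_adjacent_intervals (b := 4) (hc.intervalIntegrable _ _)
      (hc.intervalIntegrable _ _)]
    have h1 : ∫ t in r..4, upperWeight (t - 1) ≤ 3 * (Real.log 3 - Real.log (r - 1)) := by
      rw [integral_congr (g := fun t => 3 * (t - 1)⁻¹) fun t ht => ?_,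
        intervalIntegral.integral_const_mul,
        integral_comp_sub_right (fun t => t⁻¹) 1, integral_inv_of_pos (by linarith) (by norm_num),
        Real.log_div (by norm_num) (by linarith)]
      · norm_num
      · rw [Set.uIcc_of_le h4.le] at ht
        dsimp only
        rw [upperWeight_eq_inv (by linarith [ht.1]) (by linarith [ht.2]), div_eq_mul_inv]
    have h2 : ∫ t in (4 : ℝ)..max b 4, upperWeight (t - 1) ≤ 1 :=
      ((integral_mono_on (le_max_right b 4) (hc.intervalIntegrable _ _) (he.intervalIntegrable _ _)
        fun t ht => hle t (by linarith [ht.1])).trans (integral_exp_sub_le 4 4 _)).trans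
        (by norm_num)
    -- the chord of the logarithm on `[1, 3]`
    have hlog : Real.log 3 * ((r - 1) - 1) / 2 ≤ Real.log (r - 1) := by
      have h := (strictConcaveOn_log_Ioi.concaveOn).2 (Set.mem_Ioi.2 one_pos)
        (Set.mem_Ioi.2 three_pos) (show 0 ≤ (4 - r) / 2 by linarith)
        (show 0 ≤ (r - 2) / 2 by linarith) (by ring)
      simp only [smul_eq_mul, Real.log_one, mul_zero, zero_add] at h
      rw [show (4 - r) / 2 * 1 + (r - 2) / 2 * 3 = r - 1 by ring] at h
      linarith
    -- a cubic below the exponential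
    obtain ⟨x, hx⟩ : ∃ x, x = 3 - r := ⟨_, rfl⟩
    have hexp : 1 + x + x ^ 2 / 2 - (1 : ℝ) / 2 ≤ Real.exp x := by
      rcases le_or_gt 0 x with h0 | h0
      · linarith [Real.quadratic_le_exp_of_nonneg h0]
      · nlinarith [Real.add_one_le_exp x]
    have he2 : Real.exp (2 - r) = Real.exp x / Real.exp 1 := by
      rw [← Real.exp_sub, hx]
      ring_nf
    have hl3 : Real.log 3 ≤ 1.1 := by
      rw [Real.log_le_iff_le_exp (by norm_num)]
      have h9 : (1 : ℝ) + 0.1 + 0.1 ^ 2 / 2 ≤ Real.exp 0.1 :=
        Real.quadratic_le_exp_of_nonneg (by norm_num)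
      rw [show (1.1 : ℝ) = 1 + 0.1 by norm_num, Real.exp_add]
      refine le_trans ?_ (mul_le_mul Real.exp_one_gt_d9.le h9 (by norm_num) (Real.exp_pos 1).le)
      norm_num
    rw [he2, decay]
    have hE : 0 < Real.exp 1 := Real.exp_pos 1
    have hb0 : 0 ≤ 3 * (1.1 * (4 - r) / 2) + 1 := by linarith
    have key : 3 * (1.1 * (4 - r) / 2) + 1 ≤
        19 / 20 * r * (3 * (19 / 20) * (Real.exp x / Real.exp 1)) := by
      rw [show 19 / 20 * r * (3 * (19 / 20) * (Real.exp x / Real.exp 1)) =
        19 / 20 * r * (3 * (19 / 20)) * Real.exp x / Real.exp 1 by ring, le_div_iff₀ hE]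
      have hx1 : -1 ≤ x := by linarith
      have hx2 : x ≤ 1 := by linarith
      refine (mul_le_mul_of_nonneg_left Real.exp_one_lt_d9.le hb0).trans ?_
      rcases le_or_gt 0 x with h0 | h0
      · have h := Real.quadratic_le_exp_of_nonneg h0
        nlinarith [mul_nonneg h0 (sub_nonneg.2 hx2), mul_nonneg (show (0 : ℝ) ≤ r by linarith)
          (sub_nonneg.2 h)]
      · have h : 1 + x + 43 / 96 * x ^ 2 + x ^ 3 / 6 ≤ Real.exp x := by
          have hb := Real.exp_bound (x := x) (by rw [abs_le]; exact ⟨hx1, hx2⟩)
            (show 0 < 4 by norm_num)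
          rw [abs_le] at hb
          simp only [Finset.sum_range_succ, Finset.sum_range_zero, Nat.factorial,
            abs_of_neg h0] at hb
          have h4 : (-x) ^ 4 ≤ x ^ 2 := by
            have hsq : x ^ 2 ≤ 1 := by nlinarith
            nlinarith [sq_nonneg x]
          norm_num at hb
          linarith [hb.1]
        nlinarith [mul_nonneg (show (0 : ℝ) ≤ r by linarith) (sub_nonneg.2 h),
          mul_nonneg (neg_nonneg.2 h0.le) (show (0 : ℝ) ≤ 1 + x by linarith),
          mul_nonneg (mul_nonneg (neg_nonneg.2 h0.le) (neg_nonneg.2 h0.le))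
            (show (0 : ℝ) ≤ 1 + x by linarith)]
    have h3 : 3 * (Real.log 3 - Real.log (r - 1)) ≤ 3 * (1.1 * (4 - r) / 2) := by
      have := mul_le_mul_of_nonneg_right hl3 (show 0 ≤ (4 - r) / 2 by linarith)
      linarith
    linarith

/-- The step from the lower to the upper weight. -/
theorem integral_lowerWeight_le {r b : ℝ} (hr : 1 ≤ r) (hb : max r 3 ≤ b) :
    ∫ t in (max r 3)..b, lowerWeight (t - 1) ≤ decay * r * upperWeight r := by
  have hc : Continuous fun t => lowerWeight (t - 1) :=
    continuous_lowerWeight.comp (by fun_prop)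
  have he : Continuous fun t : ℝ => 3 * decay * Real.exp (3 - t) := by fun_prop
  have h : ∫ t in (max r 3)..b, lowerWeight (t - 1) ≤ 3 * decay * Real.exp (3 - max r 3) := by
    refine (integral_mono_on hb (hc.intervalIntegrable _ _) (he.intervalIntegrable _ _)
      fun t ht => le_of_eq ?_).trans ?_
    · rw [lowerWeight, max_eq_left (by linarith [ht.1, le_max_right r 3])]
      ring_nf
    · rw [intervalIntegral.integral_const_mul]
      exact mul_le_mul_of_nonneg_left (integral_exp_sub_le 3 _ b) (by positivity [decay_pos])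
  refine h.trans ?_
  rcases le_or_gt r 3 with h3 | h3
  · rw [max_eq_right h3, upperWeight_eq_inv hr h3, sub_self, Real.exp_zero, mul_one]
    field_simp
    linarith
  · rw [max_eq_left h3.le, upperWeight_eq_exp h3.le]
    calc 3 * decay * Real.exp (3 - r) ≤ r * decay * Real.exp (3 - r) :=
        mul_le_mul_of_nonneg_right (mul_le_mul_of_nonneg_right h3.le decay_pos.le)
          (Real.exp_pos _).le
      _ = _ := by ring

end FA.LinearSieve
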