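import Fermat.Agent.LinearSieve.Sieve
import Fermat.Agent.LinearSieve.Mertens

/-!
# Kuhn's weights for shifted primes

Among the primes `p ≤ x` in none of the classes `c` modulo the `q < x ^ (1/8)`, those in at most
one of the classes modulo the `q < x ^ (1003/3000)` have `∑ log p ≫ x / log x`.
-/

set_option autoImplicit false

noncomputable section

namespace FA.LinearSieve

open Finset Filter
open FA.CombinatorialSieve
open scoped Topology

/-- The sieve of the translated primes whose translates are multiples of `q`. -/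
def multipleSieve (x : ℕ) (Z Y : ℝ) (M c q : ℕ) (hM : 2 ∣ M) : BoundingSieve where
  support := (((Icc 1 x).filter Nat.Prime).image (· + classShift Y M c)).filter (q ∣ ·)
  prodPrimes := sievingProd Z M
  prodPrimes_squarefree := squarefree_sievingProd Z M
  weights m := Real.log ((m - classShift Y M c : ℕ) : ℝ)
  weights_nonneg _ := Real.log_natCast_nonneg _
  totalMass := (x : ℝ) / q.totient
  nu := invPhi
  nu_mult := invPhi_isMultiplicative
  nu_pos_of_prime p hp hpd := (shiftSieve x Z M c hM).nu_pos_of_prime p hp hpd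
  nu_lt_one_of_prime p hp hpd := (shiftSieve x Z M c hM).nu_lt_one_of_prime p hp hpd

theorem sum_primes_image {x : ℕ} {s : ℕ} (P : ℕ → Prop) [DecidablePred P] :
    (∑ m ∈ ((Icc 1 x).filter Nat.Prime).image (· + s),
        if P m then Real.log ((m - s : ℕ) : ℝ) else 0) =
      ∑ p ∈ (Icc 1 x).filter (fun p : ℕ => p.Prime ∧ P (p + s)), Real.log p := by
  rw [sum_image fun a _ b _ h => Nat.add_right_cancel h, ← filter_filter, sum_filter (fun p : ℕ =>
    P (p + s))]
  exact sum_congr rfl fun p _ => by rw [Nat.add_sub_cancel]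

theorem multipleSieve_multSum {x : ℕ} {Z Y : ℝ} {M c q d : ℕ} (hM : 2 ∣ M)
    (hqd : q * d ∣ sievingProd Y M) (hcop : q.Coprime d) :
    (multipleSieve x Z Y M c q hM).multSum d =
      ∑ p ∈ (Icc 1 x).filter (fun p : ℕ => p.Prime ∧ p ≡ c [MOD (q * d)]), Real.log p := by
  show (∑ m ∈ (((Icc 1 x).filter Nat.Prime).image (· + classShift Y M c)).filter (q ∣ ·),
    if d ∣ m then Real.log ((m - classShift Y M c : ℕ) : ℝ) else 0) = _
  rw [← sum_filter, filter_filter, sum_filter, sum_primes_image]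
  refine sum_congr (filter_congr fun p _ => and_congr_right fun _ => ?_) fun _ _ => rfl
  rw [← dvd_add_classShift_iff hqd]
  exact ⟨fun h => hcop.mul_dvd_of_dvd_of_dvd h.1 h.2,
    fun h => ⟨(dvd_mul_right q d).trans h, (dvd_mul_left d q).trans h⟩⟩

theorem multipleSieve_siftedSum {x : ℕ} {Z Y : ℝ} {M c q : ℕ} (hM : 2 ∣ M) :
    (multipleSieve x Z Y M c q hM).siftedSum =
      ∑ p ∈ (Icc 1 x).filter (fun p : ℕ => p.Prime ∧ (q ∣ p + classShift Y M c ∧
        (sievingProd Z M).Coprime (p + classShift Y M c))), Real.log p := by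
  rw [BoundingSieve.siftedSum]
  show (∑ m ∈ (((Icc 1 x).filter Nat.Prime).image (· + classShift Y M c)).filter (q ∣ ·),
    if Nat.Coprime (sievingProd Z M) m then Real.log ((m - classShift Y M c : ℕ) : ℝ) else 0) = _
  rw [← sum_filter, filter_filter, sum_filter, sum_primes_image]

theorem multipleSieve_rem {x : ℕ} {Z Y : ℝ} {M c q d : ℕ} (hM : 2 ∣ M)
    (hqd : q * d ∣ sievingProd Y M) (hcop : q.Coprime d) :
    (multipleSieve x Z Y M c q hM).rem d =
      (∑ p ∈ (Icc 1 x).filter (fun p : ℕ => p.Prime ∧ p ≡ c [MOD (q * d)]), Real.log p) -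
        (x : ℝ) / (q * d).totient := by
  rw [BoundingSieve.rem, multipleSieve_multSum hM hqd hcop,
    show (multipleSieve x Z Y M c q hM).nu d * (multipleSieve x Z Y M c q hM).totalMass =
      (d.totient : ℝ)⁻¹ * ((x : ℝ) / q.totient) from rfl, Nat.totient_mul hcop]
  push_cast
  rw [div_eq_mul_inv, div_eq_mul_inv, mul_inv]
  ring

theorem sievingPrimes_mono {Z Y : ℝ} {M : ℕ} (h : Z ≤ Y) :
    sievingPrimes Z M ⊆ sievingPrimes Y M := fun p hp => by
  obtain ⟨h1, h2, h3⟩ := mem_sievingPrimes.1 hp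
  exact mem_sievingPrimes.2 ⟨h1, h2.trans_le h, h3⟩

theorem mul_dvd_sievingProd {Z Y : ℝ} {M q d : ℕ} (hZY : Z ≤ Y) (hd : d ∣ sievingProd Z M)
    (hq : q ∈ sievingPrimes Y M) (hqZ : Z ≤ q) :
    q * d ∣ sievingProd Y M ∧ q.Coprime d := by
  have hqp := prime_of_mem_sievingPrimes hq
  have hnd : ¬ q ∣ d := fun h =>
    (not_lt.2 hqZ) ((prime_dvd_sievingProd_iff hqp).1 (h.trans hd)).1
  have hc : q.Coprime d := hqp.coprime_iff_not_dvd.2 hnd
  exact ⟨hc.mul_dvd_of_dvd_of_dvd (dvd_prod_of_mem _ hq)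
    (hd.trans (prod_dvd_prod_of_subset _ _ _ (sievingPrimes_mono hZY))), hc⟩

/-- `∑ 1 / (q - 1)` over a range of primes. -/
theorem exists_sum_invPhi_le : ∃ C : ℝ, 0 ≤ C ∧ ∀ (T : Finset ℕ) (a b : ℝ), 4 ≤ a → a ≤ b →
    (∀ p ∈ T, p.Prime ∧ a ≤ p ∧ (p : ℝ) < b) →
      ∑ p ∈ T, invPhi p ≤ Real.log (Real.log b) - Real.log (Real.log a) + C / Real.log a := by
  obtain ⟨C, hC, h⟩ := exists_sum_prime_inv_le
  refine ⟨C + 4, by linarith, fun T a b ha hab hT => ?_⟩
  have hla : 0 < Real.log a := Real.log_pos (by linarith)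
  refine (sum_le_sum (g := fun p : ℕ => (p : ℝ)⁻¹ + 2 * ((p : ℝ) ^ 2)⁻¹) fun p hp => ?_).trans ?_
  · have h2 : (2 : ℝ) ≤ p := Nat.ofNat_le_cast.2 (hT p hp).1.two_le
    rw [invPhi_apply, Nat.totient_prime (hT p hp).1, Nat.cast_sub (hT p hp).1.one_le, Nat.cast_one,
      show (p : ℝ)⁻¹ + 2 * ((p : ℝ) ^ 2)⁻¹ = ((p : ℝ) + 2) / (p : ℝ) ^ 2 by field_simp,
      inv_eq_one_div, div_le_div_iff₀ (by linarith) (by positivity)]
    nlinarith
  rw [sum_add_distrib, ← mul_sum, add_div]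
  have h1 := h T a b ha hab hT
  have hr : 2 ≤ ⌈a⌉₊ := by
    have : (2 : ℝ) ≤ ⌈a⌉₊ := le_trans (by linarith) (Nat.le_ceil a)
    exact_mod_cast this
  have h2 := sum_inv_sq_ge_le (T := T) hr fun p hp => Nat.ceil_le.2 (hT p hp).2.1
  have h3 : 2 * (2 / (⌈a⌉₊ : ℝ)) ≤ 4 / Real.log a := by
    rw [mul_div_assoc', show (2 : ℝ) * 2 = 4 by norm_num]
    refine div_le_div_of_nonneg_left (by norm_num) hla ((Real.log_le_self (by linarith)).trans
      (Nat.le_ceil a))
  linarith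

theorem log_three_bounds :
    19 / 12 * Real.log 2 ≤ Real.log 3 ∧ Real.log 3 ≤ 27 / 17 * Real.log 2 := by
  constructor
  · have h := Real.log_le_log (show (0 : ℝ) < 2 ^ 19 by norm_num)
      (show (2 : ℝ) ^ 19 ≤ 3 ^ 12 by norm_num)
    rw [Real.log_pow, Real.log_pow] at h
    push_cast at h
    linarith
  · have h := Real.log_le_log (show (0 : ℝ) < 3 ^ 17 by norm_num)
      (show (3 : ℝ) ^ 17 ≤ 2 ^ 27 by norm_num)
    rw [Real.log_pow, Real.log_pow] at h
    push_cast at h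
    linarith

/-- The numerical margin of the weights. -/
theorem kuhn_margin {A S₁ S₂ S₃ : ℝ} (hA : 3 ≤ A)
    (h₁ : S₁ ≤ Real.log (1 / 6) - Real.log (1 / 8) + 1 / 10000)
    (h₂ : S₂ ≤ Real.log (1 / 4) - Real.log (1 / 6) + 1 / 10000)
    (h₃ : S₃ ≤ Real.log (1003 / 3000) - Real.log (1 / 4) + 1 / 10000) :
    1 / 250 ≤ A * Real.log (2.992) / 3.992 - 1 / 200 -
      (S₁ * (A / (997 / 375) + 1 / 200) + S₂ * (A / 1.992 + 1 / 200) +
        S₃ * (A / (494 / 375) + 1 / 200)) / 2 := by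
  obtain ⟨hl, hu⟩ := log_three_bounds
  have h2l := Real.log_two_gt_d9
  have h2u := Real.log_two_lt_d9
  have e6 : Real.log 6 = Real.log 2 + Real.log 3 := by
    rw [← Real.log_mul two_ne_zero three_ne_zero]; norm_num
  have e4 : Real.log 4 = 2 * Real.log 2 := by
    rw [show (4 : ℝ) = 2 ^ 2 by norm_num, Real.log_pow]; norm_num
  have e8 : Real.log 8 = 3 * Real.log 2 := by
    rw [show (8 : ℝ) = 2 ^ 3 by norm_num, Real.log_pow]; norm_num
  simp only [one_div, Real.log_inv] at h₁ h₂ h₃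
  have e9 : Real.log (1003 / 3000) ≤ -Real.log 3 + 3 / 1000 := by
    rw [show (1003 : ℝ) / 3000 = 3⁻¹ * (1003 / 1000) by norm_num,
      Real.log_mul (by norm_num) (by norm_num), Real.log_inv]
    linarith [Real.log_le_sub_one_of_pos (show (0 : ℝ) < 1003 / 1000 by norm_num)]
  have e3 : Real.log 3 - 27 / 10000 ≤ Real.log 2.992 := by
    rw [show (3 : ℝ) = 2.992 * (3 / 2.992) by norm_num,
      Real.log_mul (by norm_num) (by norm_num)]
    linarith [Real.log_le_sub_one_of_pos (show (0 : ℝ) < 3 / 2.992 by norm_num)]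
  have b1 : S₁ ≤ 0.28892 := by norm_num at h₁ ⊢; linarith
  have b2 : S₂ ≤ 0.40784 := by norm_num at h₂ ⊢; linarith
  have b3 : S₃ ≤ 0.29192 := by norm_num at h₃ ⊢; linarith
  have b0 : 1.09478 ≤ Real.log 2.992 := by norm_num at e3 ⊢; linarith
  have c1 := mul_le_mul_of_nonneg_right b1 (show 0 ≤ A / (997 / 375) + 1 / 200 by positivity)
  have c2 := mul_le_mul_of_nonneg_right b2 (show 0 ≤ A / 1.992 + 1 / 200 by positivity)
  have c3 := mul_le_mul_of_nonneg_right b3 (show 0 ≤ A / (494 / 375) + 1 / 200 by positivity)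
  have c0 := mul_le_mul_of_nonneg_left b0 (show (0 : ℝ) ≤ A by linarith)
  norm_num at c0 c1 c2 c3 ⊢
  linarith

/-- The primes `q < y`, `q ∤ M`, not below `z`. -/
def middlePrimes (z y : ℝ) (M : ℕ) : Finset ℕ :=
  (sievingPrimes y M).filter fun q : ℕ => z ≤ q

/-- The primes with at most one middle class. -/
def weightedSet (x : ℕ) (z y : ℝ) (M c : ℕ) : Finset ℕ :=
  (Icc 1 x).filter fun p : ℕ => p.Prime ∧ (sievingProd z M).Coprime (p + classShift y M c) ∧
    #((middlePrimes z y M).filter fun q => q ∣ p + classShift y M c) ≤ 1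

theorem weighted_le (x : ℕ) (z y : ℝ) (M c : ℕ) (hM : 2 ∣ M) :
    (multipleSieve x z y M c 1 hM).siftedSum -
        (∑ q ∈ middlePrimes z y M, (multipleSieve x z y M c q hM).siftedSum) / 2 ≤
      ∑ p ∈ weightedSet x z y M c, Real.log p := by
  rw [multipleSieve_siftedSum, sum_congr rfl fun q _ => multipleSieve_siftedSum hM]
  simp only [one_dvd, true_and, sum_filter]
  rw [sum_comm, sum_div, ← sum_sub_distrib, weightedSet, sum_filter]
  refine sum_le_sum fun p _ => ?_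
  have hl : 0 ≤ Real.log p := Real.log_natCast_nonneg p
  by_cases hp : p.Prime ∧ (sievingProd z M).Coprime (p + classShift y M c)
  · obtain ⟨n, hn⟩ : ∃ n, n = #((middlePrimes z y M).filter fun q =>
        q ∣ p + classShift y M c) := ⟨_, rfl⟩
    have e : (∑ q ∈ middlePrimes z y M, if p.Prime ∧ q ∣ p + classShift y M c ∧
        (sievingProd z M).Coprime (p + classShift y M c) then Real.log p else 0) =
          n * Real.log p := by
      rw [← sum_filter, sum_const, nsmul_eq_mul, hn]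
      congr 3
      exact filter_congr fun q _ => ⟨fun h => h.2.1, fun h => ⟨hp.1, h, hp.2⟩⟩
    rw [if_pos hp, e, ← hn]
    split_ifs with h
    · have : 0 ≤ (n : ℝ) * Real.log p := mul_nonneg (Nat.cast_nonneg n) hl
      linarith
    · have hn2 : (2 : ℝ) ≤ n := by
        have : ¬ n ≤ 1 := fun h' => h ⟨hp.1, hp.2, h'⟩
        exact_mod_cast (show 2 ≤ n by omega)
      linarith [mul_le_mul_of_nonneg_right hn2 hl]
  · rw [if_neg hp, zero_sub]
    rw [sum_eq_zero fun q _ => if_neg fun h => hp ⟨h.1, h.2.2⟩, zero_div, neg_zero]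
    split_ifs <;> linarith

/-- The remainders of all the sieves together are controlled by one sum over the moduli. -/
theorem remSum_total_le {x : ℕ} {z y D : ℝ} {M c W : ℕ} (hM : 2 ∣ M) (hzy : z ≤ y) (hD : 0 ≤ D)
    (hq : ∀ q : ℕ, q.Prime → (q : ℝ) < y → ¬ q ∣ M → ¬ q ∣ c) {w : ℝ}
    (hW : smallProduct (multipleSieve x z y M c 1 hM) w ≤ W) {E : ℝ}
    (hE : ∀ a : ℕ → ℕ, (∀ n ∈ Icc 1 ⌊D * W⌋₊, (a n).Coprime n) → ∑ n ∈ Icc 1 ⌊D * W⌋₊,
      |(∑ p ∈ (Icc 1 x).filter (fun p : ℕ => p.Prime ∧ p ≡ a n [MOD n]), Real.log p) -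
        (x : ℝ) / n.totient| ≤ E) :
    remSum (multipleSieve x z y M c 1 hM) (D * smallProduct (multipleSieve x z y M c 1 hM) w) +
      (∑ q ∈ middlePrimes z y M, remSum (multipleSieve x z y M c q hM)
        (D / q * smallProduct (multipleSieve x z y M c q hM) w)) / 2 ≤ 2 * E := by
  classical
  obtain ⟨a, ha⟩ : ∃ a : ℕ → ℕ, a = fun n => if c.Coprime n then c else 1 := ⟨_, rfl⟩
  have h0 := hE a fun n _ => by
    simp only [ha]
    split_ifs with h
    · exact h
    · exact Nat.coprime_one_left n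
  have hcop : ∀ n, n ∣ sievingProd y M → a n = c := fun n hn => by
    simp only [ha]
    refine if_pos ?_
    by_contra h
    obtain ⟨r, hr, hrc, hrn⟩ := Nat.Prime.not_coprime_iff_dvd.1 h
    obtain ⟨h1, h2⟩ := (prime_dvd_sievingProd_iff hr).1 (hrn.trans hn)
    exact hq r hr h1 h2 hrc
  obtain ⟨E', hE'⟩ : ∃ E' : ℕ → ℝ, E' = fun n => |(∑ p ∈ (Icc 1 x).filter
      (fun p : ℕ => p.Prime ∧ p ≡ a n [MOD n]), Real.log p) - (x : ℝ) / n.totient| := ⟨_, rfl⟩
  have h1 : ∑ n ∈ Icc 1 ⌊D * W⌋₊, E' n ≤ E := hE' ▸ h0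
  have hE'0 : ∀ n, 0 ≤ E' n := fun n => by rw [hE']; exact abs_nonneg _
  have hsp : ∀ q, smallProduct (multipleSieve x z y M c q hM) w =
      smallProduct (multipleSieve x z y M c 1 hM) w := fun q => rfl
  obtain ⟨q₀, hq₀⟩ : ∃ q₀, q₀ = smallProduct (multipleSieve x z y M c 1 hM) w := ⟨_, rfl⟩
  have hterm : ∀ q d : ℕ, q * d ∣ sievingProd y M → q.Coprime d →
      |(multipleSieve x z y M c q hM).rem d| = E' (q * d) := fun q d h h' => by
    rw [multipleSieve_rem hM h h', hE']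
    simp only [hcop _ h]
  have hmain : remSum (multipleSieve x z y M c 1 hM) (D * q₀) ≤ E := by
    rw [remSum]
    refine le_trans (le_of_eq (sum_congr rfl fun d hd => ?_))
      ((sum_le_sum_of_subset_of_nonneg (fun d hd => ?_) fun d _ _ => hE'0 d).trans h1)
    · have hdP : d ∣ sievingProd z M := Nat.dvd_of_mem_divisors (mem_filter.1 hd).1
      have hdY : 1 * d ∣ sievingProd y M := by
        rw [one_mul]
        exact hdP.trans (prod_dvd_prod_of_subset _ _ _ (sievingPrimes_mono hzy))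
      rw [hterm 1 d hdY (Nat.coprime_one_left d), one_mul]
    · rw [mem_filter] at hd
      exact mem_Icc.2 ⟨Nat.pos_of_mem_divisors hd.1, Nat.le_floor (hd.2.le.trans
        (mul_le_mul_of_nonneg_left (Nat.cast_le.2 (hq₀ ▸ hW)) hD))⟩
  have hrest :
      ∑ q ∈ middlePrimes z y M, remSum (multipleSieve x z y M c q hM) (D / q * q₀) ≤ E := by
    simp only [remSum]
    refine le_of_eq_of_le (sum_sigma (middlePrimes z y M)
      (fun q => (sievingProd z M).divisors.filter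
      fun d : ℕ => (d : ℝ) < D / q * q₀)
        fun u => |(multipleSieve x z y M c u.1 hM).rem u.2|).symm ?_
    have hmem : ∀ u ∈ (middlePrimes z y M).sigma (fun q => (sievingProd z M).divisors.filter
        fun d : ℕ => (d : ℝ) < D / q * q₀), u.1 ∈ sievingPrimes y M ∧ z ≤ (u.1 : ℝ) ∧
          u.2 ∣ sievingProd z M ∧ ((u.1 * u.2 : ℕ) : ℝ) < D * q₀ := fun u hu => by
      simp only [mem_sigma, middlePrimes, mem_filter, Nat.mem_divisors] at hu
      refine ⟨hu.1.1, hu.1.2, hu.2.1.1, ?_⟩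
      have hq0 : (0 : ℝ) < u.1 := Nat.cast_pos.2 (prime_of_mem_sievingPrimes hu.1.1).pos
      rw [Nat.cast_mul]
      refine (mul_lt_mul_of_pos_left hu.2.2 hq0).trans_le (le_of_eq ?_)
      field_simp
    refine le_trans (le_of_eq (sum_congr rfl fun u hu => ?_)) (le_of_eq_of_le (sum_image
      (f := E') (g := fun u : (_ : ℕ) × ℕ => u.1 * u.2) ?_).symm
      ((sum_le_sum_of_subset_of_nonneg ?_ fun n _ _ => hE'0 n).trans h1))
    · obtain ⟨h2, h3, h4, -⟩ := hmem u hu
      exact hterm _ _ (mul_dvd_sievingProd hzy h4 h2 h3).1 (mul_dvd_sievingProd hzy h4 h2 h3).2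
    · intro u hu v hv h
      obtain ⟨h2, h3, h4, -⟩ := hmem u hu
      obtain ⟨h2', h3', h4', -⟩ := hmem v hv
      dsimp only at h
      have hup := prime_of_mem_sievingPrimes h2
      have heq : u.1 = v.1 := by
        have hdvd : u.1 ∣ v.1 * v.2 := h ▸ dvd_mul_right _ _
        rcases hup.dvd_mul.1 hdvd with h5 | h5
        · exact (Nat.prime_dvd_prime_iff_eq hup (prime_of_mem_sievingPrimes h2')).1 h5
        · exact absurd ((prime_dvd_sievingProd_iff hup).1 (h5.trans h4')).1 (not_lt.2 h3)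
      refine Sigma.ext heq (heq_of_eq ?_)
      rw [← heq] at h
      exact Nat.eq_of_mul_eq_mul_left hup.pos h
    · intro n hn
      obtain ⟨u, hu, rfl⟩ := mem_image.1 hn
      obtain ⟨h2, h3, h4, h5⟩ := hmem u hu
      refine mem_Icc.2 ⟨Nat.mul_pos (prime_of_mem_sievingPrimes h2).pos
        (Nat.pos_of_ne_zero fun h0 => (squarefree_sievingProd z M).ne_zero
          (Nat.eq_zero_of_zero_dvd (h0 ▸ h4))), Nat.le_floor (h5.le.trans
            (mul_le_mul_of_nonneg_left (Nat.cast_le.2 (hq₀ ▸ hW)) hD))⟩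
  simp only [hsp]
  rw [← hq₀]
  have : 0 ≤ E := (sum_nonneg fun n _ => hE'0 n).trans h1
  linarith

/-- A block of the middle primes. -/
theorem block_le {x : ℕ} {M : ℕ} {z y a b s δ A V : ℝ} {G : ℕ → ℝ}
    (hG : ∀ q ∈ (middlePrimes z y M).filter (fun q : ℕ => (x : ℝ) ^ a ≤ q ∧ (q : ℝ) < (x : ℝ) ^ b),
      G q ≤ invPhi q * (V * (A / s + δ))) :
    ∑ q ∈ (middlePrimes z y M).filter (fun q : ℕ => (x : ℝ) ^ a ≤ q ∧ (q : ℝ) < (x : ℝ) ^ b),
        G q ≤
      V * ((∑ q ∈ (middlePrimes z y M).filter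
        (fun q : ℕ => (x : ℝ) ^ a ≤ q ∧ (q : ℝ) < (x : ℝ) ^ b), invPhi q) * (A / s + δ)) := by
  refine (sum_le_sum hG).trans (le_of_eq ?_)
  rw [sum_mul, mul_sum]
  exact sum_congr rfl fun q _ => by ring

set_option maxHeartbeats 1600000 in
/-- **The weighted sieve.** -/
theorem exists_weightedSet_ge : ∃ η : ℝ, 0 < η ∧ ∀ᶠ x : ℕ in atTop, ∀ M c : ℕ, 2 ∣ M →
    (∀ q : ℕ, q.Prime → (q : ℝ) < (x : ℝ) ^ (1003 / 3000 : ℝ) → ¬ q ∣ M → ¬ q ∣ c) →
      η * x / Real.log x ≤ ∑ p ∈ weightedSet x ((x : ℝ) ^ (1 / 8 : ℝ))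
        ((x : ℝ) ^ (1003 / 3000 : ℝ)) M c, Real.log p := by
  obtain ⟨B, C, hC, hBV⟩ := BombieriVinogradov.Summary.bombieri_vinogradov_theta 2
  obtain ⟨Cm, hCm, hM1⟩ := exists_sum_invPhi_le
  obtain ⟨w, hw4, hw⟩ := exists_ratioBound_invPhi (show (0 : ℝ) < 1 / 6000000 by norm_num)
  obtain ⟨W, hWdef⟩ : ∃ W, W = ∏ p ∈ (range ⌈w⌉₊).filter Nat.Prime, p := ⟨_, rfl⟩
  obtain ⟨θ, hθ⟩ : ∃ θ : ℝ, θ = (Real.exp 17)⁻¹ * (Real.log 2 * 8) := ⟨_, rfl⟩
  have hθ0 : 0 < θ := hθ ▸ mul_pos (by positivity) (mul_pos (Real.log_pos one_lt_two) (by norm_num))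
  refine ⟨θ / 500, by positivity, ?_⟩
  have hW5 := ((tendsto_rpow_atTop (show (0 : ℝ) < 1 / 5000 by norm_num)).comp
    (tendsto_natCast_atTop_atTop (R := ℝ))).eventually_ge_atTop (W : ℝ)
  filter_upwards [hW5, eventually_ge_atTop (65536 : ℕ), eventually_ge_atTop 3,
    BombieriVinogradov.eventually_log_ge (max 1 (max (1000 * C / θ) (80000 * Cm))),
    BombieriVinogradov.eventually_log_pow_le B (show (0 : ℝ) < 1 / 5000 by norm_num)]
    with x hWx hx2 hx3 hlC hlB M c hM hc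
  simp only [Function.comp_apply] at hWx
  obtain ⟨l, hl⟩ : ∃ l, l = Real.log x := ⟨_, rfl⟩
  rw [← hl] at hlC hlB ⊢
  have hl1 : 1 ≤ l := le_of_max_le_left hlC
  have hx0 : (0 : ℝ) < x := Nat.cast_pos.2 (by omega)
  have hx1 : (1 : ℝ) ≤ x := Nat.one_le_cast.2 (by omega)
  obtain ⟨z, hz⟩ : ∃ z : ℝ, z = (x : ℝ) ^ (1 / 8 : ℝ) := ⟨_, rfl⟩
  obtain ⟨y, hy⟩ : ∃ y : ℝ, y = (x : ℝ) ^ (1003 / 3000 : ℝ) := ⟨_, rfl⟩
  obtain ⟨D, hD⟩ : ∃ D : ℝ, D = (x : ℝ) ^ (499 / 1000 : ℝ) := ⟨_, rfl⟩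
  rw [← hz, ← hy]
  rw [← hy] at hc
  have hlr : ∀ a : ℝ, Real.log ((x : ℝ) ^ a) = a * l := fun a => by rw [Real.log_rpow hx0, hl]
  have hz4 : 4 ≤ z := by
    have h1 : ((4 : ℝ) ^ (8 : ℕ)) ≤ x := by
      norm_num
      exact_mod_cast hx2
    rw [hz, show (1 : ℝ) / 8 = ((8 : ℕ) : ℝ)⁻¹ by norm_num]
    refine le_of_eq_of_le ?_ (Real.rpow_le_rpow (by positivity) h1 (by positivity))
    exact (Real.pow_rpow_inv_natCast (by norm_num) (by norm_num)).symm
  have hzy : z ≤ y := by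
    rw [hz, hy]
    exact Real.rpow_le_rpow_of_exponent_le hx1 (by norm_num)
  have hD0 : 0 < D := hD ▸ Real.rpow_pos_of_pos hx0 _
  have hDW : D * W ≤ Real.sqrt x / l ^ B := by
    rw [le_div_iff₀ (by positivity)]
    refine (mul_le_mul (mul_le_mul_of_nonneg_left hWx hD0.le) hlB (by positivity)
      (by positivity)).trans ?_
    rw [hD, ← Real.rpow_add hx0, ← Real.rpow_add hx0, Real.sqrt_eq_rpow]
    exact Real.rpow_le_rpow_of_exponent_le hx1 (by norm_num)
  obtain ⟨E, hE⟩ : ∃ E, E = C * ((x : ℝ) / l ^ 2) := ⟨_, rfl⟩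
  have hpf : ∀ q, (multipleSieve x z y M c q hM).prodPrimes.primeFactors = sievingPrimes z M :=
    fun q => primeFactors_sievingProd z M
  have hW : smallProduct (multipleSieve x z y M c 1 hM) w ≤ W := by
    rw [smallProduct, hWdef, hpf]
    refine Nat.le_of_dvd (prod_pos fun p hp => (mem_filter.1 hp).2.pos)
      (prod_dvd_prod_of_subset _ _ _ fun p hp => ?_)
    rw [mem_filter, not_le] at hp
    rw [mem_filter, mem_range, Nat.lt_ceil]
    exact ⟨hp.2, prime_of_mem_sievingPrimes hp.1⟩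
  have hR := remSum_total_le (D := D) (E := E) (w := w) (W := W) hM hzy hD0.le hc hW fun a ha =>
    hE ▸ hl ▸ hBV x hx3 ⌊D * W⌋₊ (hl ▸ (Nat.floor_le (by positivity)).trans hDW) (fun _ => x) a
      fun n hn => ⟨le_rfl, ha n hn⟩
  -- the main terms
  have hratio : ∀ q, RatioBound (largePrimes (multipleSieve x z y M c q hM) w)
      (multipleSieve x z y M c q hM).nu (1 / 6000000) := fun q => hw _ fun p hp => by
    rw [largePrimes, mem_filter, hpf] at hp
    exact ⟨prime_of_mem_sievingPrimes hp.1, hp.2⟩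
  have hP : ∀ q, ∀ p ∈ (multipleSieve x z y M c q hM).prodPrimes.primeFactors, (p : ℝ) < z :=
    fun q p hp => by
      rw [hpf] at hp
      exact (mem_sievingPrimes.1 hp).2.1
  obtain ⟨V, hV⟩ : ∃ V, V = ∏ p ∈ sievingPrimes z M, (1 - invPhi p) := ⟨_, rfl⟩
  have hVs : ∀ q, sieveProduct (multipleSieve x z y M c q hM) = V := fun q => by
    rw [sieveProduct, hpf, hV]
    rfl
  have hV0 : 0 ≤ V := hVs 1 ▸ (sieveProduct_pos _).le
  have hVlow : θ / l ≤ V := by
    have h := inv_mul_rpow_le_prod (Real.exp_pos 17) (show (2 : ℝ) ≤ z by linarith)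
      (fun p hp => (prime_of_mem_sievingPrimes hp).two_le) (fun p hp => by
        refine (multipleSieve x z y M c 1 hM).nu_lt_one_of_prime p
          (prime_of_mem_sievingPrimes hp) ?_
        exact dvd_prod_of_mem _ hp) (phi_dimension (Z := z) hM)
    rw [Real.rpow_one, hz, hlr] at h
    rw [hV, hz]
    refine le_of_eq_of_le ?_ h
    rw [hθ]
    field_simp
  have hlzD : Real.log D / Real.log z = 3.992 := by
    rw [hD, hz, hlr, hlr]
    field_simp
    norm_num
  have hlo := (linear_sieve (δ := 1 / 200) (ε := 1 / 6000000) (by norm_num) (by norm_num)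
    (by norm_num) (by norm_num) (multipleSieve x z y M c 1 hM) (w := w)
    (show (0 : ℝ) ≤ (x : ℝ) / (1 : ℕ).totient by positivity) (hP 1) (by linarith) hD0 (hratio 1)).2
    (by rw [hz, hD, hlr, hlr]; linarith)
  have htot : (multipleSieve x z y M c 1 hM).totalMass = (x : ℝ) := by
    show (x : ℝ) / ((1 : ℕ).totient : ℝ) = x
    simp
  rw [hVs, hlzD, sieveLowerFn_eq (by norm_num) (by norm_num), htot] at hlo
  have hA := three_le_linearConst
  have hup : ∀ (b s : ℝ), 1 ≤ s → s ≤ 3 → s = 8 * (499 / 1000 - b) →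
      ∀ q ∈ middlePrimes z y M, (q : ℝ) < (x : ℝ) ^ b →
        (multipleSieve x z y M c q hM).siftedSum -
          remSum (multipleSieve x z y M c q hM)
            (D / q * smallProduct (multipleSieve x z y M c q hM) w) ≤
        invPhi q * ((x : ℝ) * V * (linearConst / s + 1 / 200)) := by
    intro b s hs1 hs3 hsb q hq hqb
    simp only [middlePrimes, mem_filter] at hq
    have hq0 : (0 : ℝ) < q := Nat.cast_pos.2 (prime_of_mem_sievingPrimes hq.1).pos
    have hlq : Real.log q ≤ b * l := (Real.log_le_log hq0 hqb.le).trans (hlr b).le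
    have hlDq : Real.log (D / q) = 499 / 1000 * l - Real.log q := by
      rw [Real.log_div hD0.ne' hq0.ne', hD, hlr]
    have hsq : s ≤ Real.log (D / q) / Real.log z := by
      rw [hlDq, hz, hlr, le_div_iff₀ (by linarith), hsb]
      linarith
    have h := (linear_sieve (δ := 1 / 200) (ε := 1 / 6000000) (by norm_num) (by norm_num)
      (by norm_num) (by norm_num) (multipleSieve x z y M c q hM) (D := D / q) (w := w)
      (show (0 : ℝ) ≤ (x : ℝ) / q.totient by positivity) (hP q) (by linarith)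
      (div_pos hD0 hq0) (hratio q)).1 (by
        rw [hlDq, hz, hlr]
        have : 1 * l ≤ s * l := mul_le_mul_of_nonneg_right hs1 (by linarith)
        rw [hsb] at this
        linarith)
    rw [hVs, show (multipleSieve x z y M c q hM).totalMass = (x : ℝ) / q.totient from rfl] at h
    have hmono : sieveUpperFn (Real.log (D / q) / Real.log z) ≤ linearConst / s := by
      rw [← sieveUpperFn_eq hs1 hs3]
      exact add_le_add le_rfl (antitone_upperDefect hsq)
    have h5 := mul_le_mul_of_nonneg_left (add_le_add hmono (le_refl ((1 : ℝ) / 200)))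
      (show 0 ≤ (x : ℝ) / q.totient * V by positivity)
    rw [invPhi_apply]
    refine (sub_le_iff_le_add.2 h).trans (h5.trans (le_of_eq ?_))
    ring
  obtain ⟨G, hG⟩ : ∃ G : ℕ → ℝ, G = fun q => (multipleSieve x z y M c q hM).siftedSum -
      remSum (multipleSieve x z y M c q hM)
        (D / q * smallProduct (multipleSieve x z y M c q hM) w) := ⟨_, rfl⟩
  have hblock : ∀ a b s : ℝ, 1 / 8 ≤ a → a ≤ b → 1 ≤ s → s ≤ 3 → s = 8 * (499 / 1000 - b) →
      ∃ T : ℝ, T ≤ Real.log b - Real.log a + 1 / 10000 ∧ 0 ≤ T ∧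
        ∑ q ∈ (middlePrimes z y M).filter (fun q : ℕ => (x : ℝ) ^ a ≤ q ∧ (q : ℝ) < (x : ℝ) ^ b),
          G q ≤ (x : ℝ) * V * (T * (linearConst / s + 1 / 200)) := by
    intro a b s ha hab hs1 hs3 hsb
    refine ⟨∑ q ∈ (middlePrimes z y M).filter
      (fun q : ℕ => (x : ℝ) ^ a ≤ q ∧ (q : ℝ) < (x : ℝ) ^ b), invPhi q, ?_,
      sum_nonneg fun q _ => by rw [invPhi_apply]; positivity, block_le (x := x) fun q hq => ?_⟩
    · have h1 := hM1 ((middlePrimes z y M).filter
          (fun q : ℕ => (x : ℝ) ^ a ≤ q ∧ (q : ℝ) < (x : ℝ) ^ b)) ((x : ℝ) ^ a) ((x : ℝ) ^ b)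
        (hz4.trans (hz ▸ Real.rpow_le_rpow_of_exponent_le hx1 ha))
        (Real.rpow_le_rpow_of_exponent_le hx1 hab) fun q hq => by
          simp only [middlePrimes, mem_filter] at hq
          exact ⟨prime_of_mem_sievingPrimes hq.1.1, hq.2.1, hq.2.2⟩
      rw [hlr, hlr, Real.log_mul (by linarith) (by linarith),
        Real.log_mul (by linarith) (by linarith)] at h1
      have h2 : Cm / (a * l) ≤ 1 / 10000 := by
        have h3 : 80000 * Cm ≤ l := le_of_max_le_right (le_of_max_le_right hlC)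
        rw [div_le_iff₀ (mul_pos (by linarith) (by linarith))]
        have := mul_le_mul_of_nonneg_right ha (show 0 ≤ l by linarith)
        linarith
      linarith
    · rw [hG]
      exact hup b s hs1 hs3 hsb q (mem_filter.1 hq).1 (mem_filter.1 hq).2.2
  obtain ⟨T₁, hT₁, -, hB₁⟩ := hblock (1 / 8) (1 / 6) (997 / 375) le_rfl (by norm_num) (by norm_num)
    (by norm_num) (by norm_num)
  obtain ⟨T₂, hT₂, -, hB₂⟩ := hblock (1 / 6) (1 / 4) 1.992 (by norm_num) (by norm_num) (by norm_num)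
    (by norm_num) (by norm_num)
  obtain ⟨T₃, hT₃, -, hB₃⟩ := hblock (1 / 4) (1003 / 3000) (494 / 375) (by norm_num) (by norm_num)
    (by norm_num) (by norm_num) (by norm_num)
  have hsplit : ∑ q ∈ middlePrimes z y M, G q =
      ∑ q ∈ (middlePrimes z y M).filter
        (fun q : ℕ => (x : ℝ) ^ (1 / 8 : ℝ) ≤ q ∧ (q : ℝ) < (x : ℝ) ^ (1 / 6 : ℝ)), G q +
      ∑ q ∈ (middlePrimes z y M).filter
        (fun q : ℕ => (x : ℝ) ^ (1 / 6 : ℝ) ≤ q ∧ (q : ℝ) < (x : ℝ) ^ (1 / 4 : ℝ)), G q +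
      ∑ q ∈ (middlePrimes z y M).filter
        (fun q : ℕ => (x : ℝ) ^ (1 / 4 : ℝ) ≤ q ∧ (q : ℝ) < (x : ℝ) ^ (1003 / 3000 : ℝ)), G q := by
    simp only [sum_filter]
    rw [← sum_add_distrib, ← sum_add_distrib]
    refine sum_congr rfl fun q hq => ?_
    simp only [middlePrimes, mem_filter, mem_sievingPrimes] at hq
    have h1 : (x : ℝ) ^ (1 / 6 : ℝ) ≤ (x : ℝ) ^ (1 / 4 : ℝ) :=
      Real.rpow_le_rpow_of_exponent_le hx1 (by norm_num)
    rw [hz] at hq
    rw [hy] at hq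
    rcases lt_or_ge (q : ℝ) ((x : ℝ) ^ (1 / 6 : ℝ)) with h6 | h6
    · rw [if_pos ⟨hq.2, h6⟩, if_neg fun h => not_lt.2 h.1 h6,
        if_neg fun h => not_lt.2 h.1 (h6.trans_le h1), add_zero, add_zero]
    · rw [if_neg fun h => not_lt.2 h6 h.2, zero_add]
      rcases lt_or_ge (q : ℝ) ((x : ℝ) ^ (1 / 4 : ℝ)) with h4 | h4
      · rw [if_pos ⟨h6, h4⟩, if_neg fun h => not_lt.2 h.1 h4, add_zero]
      · rw [if_neg fun h => not_lt.2 h4 h.2, if_pos ⟨h4, hq.1.2.1⟩, zero_add]
  have hmargin := kuhn_margin hA hT₁ hT₂ hT₃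
  rw [show (2.992 : ℝ) = 3.992 - 1 by norm_num] at hmargin
  have hw' := weighted_le x z y M c hM
  have hGsum : ∑ q ∈ middlePrimes z y M, (multipleSieve x z y M c q hM).siftedSum =
      (∑ q ∈ middlePrimes z y M, G q) + ∑ q ∈ middlePrimes z y M,
        remSum (multipleSieve x z y M c q hM)
          (D / q * smallProduct (multipleSieve x z y M c q hM) w) := by
    rw [hG, ← sum_add_distrib]
    simp
  have hXV : θ / l * (x : ℝ) * (1 / 250) ≤ (x : ℝ) * V * (linearConst * Real.log (3.992 - 1) /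
      3.992 - 1 / 200 - (T₁ * (linearConst / (997 / 375) + 1 / 200) +
        T₂ * (linearConst / 1.992 + 1 / 200) + T₃ * (linearConst / (494 / 375) + 1 / 200)) / 2) :=
    mul_le_mul (by rw [mul_comm (x : ℝ) V]; exact mul_le_mul_of_nonneg_right hVlow hx0.le) hmargin
      (by norm_num) (by positivity)
  have hErr : 2 * E ≤ θ / 500 * x / l := by
    have h3 : 1000 * C / θ ≤ l := le_of_max_le_left (le_of_max_le_right hlC)
    rw [div_le_iff₀ hθ0] at h3
    rw [hE, mul_div_assoc', mul_div_assoc', div_le_div_iff₀ (by positivity) (by positivity)]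
    have := mul_le_mul_of_nonneg_left h3 (show 0 ≤ (x : ℝ) * l by positivity)
    rw [sq]
    linarith
  have e : θ / l * (x : ℝ) * (1 / 250) = 2 * (θ / 500 * x / l) := by ring
  linarith

end FA.LinearSieve
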